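import Mathlib
import Fermat.Agent.S55.KernelField
import Fermat.Agent.S55.LevelFamily

/-!
# S56 / [GW-EC] / [EC-UNIT]: the level field of `π : G_ℚ →* Δ` (prefix `s56ecu_`)

`π : Gal(ℚ̄/ℚ) →* Δ` onto a finite group, trivial on `Fix F` for a finite `F`.
`K := s56ecu_levK π` is the fixed field of `ker π`: a finite Galois extension of `ℚ` with
`Fix K = ker π`, unramified outside `S` if `π` is; `s56ecu_levIso : Δ ≃* Gal(K/ℚ)` with
`s56ecu_levIso (π g) = g|_K`.
-/

set_option autoImplicit false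
set_option linter.unusedSectionVars false

namespace Fermat.Agent.S56

open Fermat.Agent.S55

local notation "Qbar" => AlgebraicClosure ℚ
local notation "GQ" => (AlgebraicClosure ℚ ≃ₐ[ℚ] AlgebraicClosure ℚ)

variable {Δ : Type} [Group Δ] (π : GQ →* Δ)

/-- The level field of `π`: the fixed field of `ker π`. -/
noncomputable def s56ecu_levK : IntermediateField ℚ Qbar := IntermediateField.fixedField π.ker

variable (hsm : ∃ F : IntermediateField ℚ Qbar, FiniteDimensional ℚ F ∧
  ∀ s ∈ F.fixingSubgroup, π s = 1)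

include hsm

theorem s56ecu_ker_isOpen : IsOpen (π.ker : Set GQ) := by
  obtain ⟨F, hfin, h⟩ := hsm
  have := hfin
  have hle : F.fixingSubgroup ≤ π.ker := fun s hs => MonoidHom.mem_ker.2 (h s hs)
  exact Subgroup.isOpen_mono hle (IntermediateField.fixingSubgroup_isOpen F)

theorem s56ecu_levK_fixingSubgroup : (s56ecu_levK π).fixingSubgroup = π.ker :=
  tl_fixingSubgroup_fixedField_of_isOpen _ (s56ecu_ker_isOpen π hsm)

theorem s56ecu_levK_finiteDimensional : FiniteDimensional ℚ (s56ecu_levK π) :=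
  tl_finiteDimensional_fixedField _ (s56ecu_ker_isOpen π hsm)

theorem s56ecu_levK_isGalois : IsGalois ℚ (s56ecu_levK π) :=
  tl_isGalois_fixedField _ (s56ecu_ker_isOpen π hsm)

theorem s56ecu_levK_normal : Normal ℚ (s56ecu_levK π) :=
  have := s56ecu_levK_isGalois π hsm
  inferInstance

theorem s56ecu_levK_numberField : NumberField (s56ecu_levK π) :=
  have := s56ecu_levK_finiteDimensional π hsm
  ⟨⟩

theorem s56ecu_mem_levK_fixingSubgroup (g : GQ) :
    g ∈ (s56ecu_levK π).fixingSubgroup ↔ π g = 1 := by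
  rw [s56ecu_levK_fixingSubgroup π hsm, MonoidHom.mem_ker]

theorem s56ecu_levK_unr (S : Finset Nat.Primes)
    (hunr : ∀ q : Nat.Primes, q ∉ S → ∀ A : ValuationSubring Qbar,
      A.LiesOverPrime (q : ℕ) → ∀ g ∈ A.inertiaSubgroupIn ℚ, π g = 1) :
    (s56ecu_levK π).IsUnramifiedOutside S := by
  refine ⟨s56ecu_levK_finiteDimensional π hsm, fun q hq A hA g hg => ?_⟩
  rw [s56ecu_mem_levK_fixingSubgroup π hsm]
  exact hunr q hq A hA g hg

variable (hsurj : Function.Surjective π)

/-- `Δ ≃* Gal(K/ℚ)`, `π g ↦ g|_K`. -/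
noncomputable def s56ecu_levIso :
    Δ ≃* (↥(s56ecu_levK π) ≃ₐ[ℚ] ↥(s56ecu_levK π)) :=
  haveI := s56ecu_levK_normal π hsm
  (QuotientGroup.quotientKerEquivOfSurjective π hsurj).symm.trans
    ((QuotientGroup.quotientMulEquivOfEq
      ((s56ecu_levK_fixingSubgroup π hsm).symm.trans
        (tl_ker_restrictNormalHom (s56ecu_levK π)).symm)).trans
      (QuotientGroup.quotientKerEquivOfSurjective
        (AlgEquiv.restrictNormalHom (F := ℚ) (K₁ := Qbar) (s56ecu_levK π))
        (tl_restrictNormalHom_surjective (s56ecu_levK π))))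

theorem s56ecu_levIso_apply (g : GQ) :
    haveI := s56ecu_levK_normal π hsm
    s56ecu_levIso π hsm hsurj (π g) = AlgEquiv.restrictNormalHom (s56ecu_levK π) g := by
  have := s56ecu_levK_normal π hsm
  have h1 : (QuotientGroup.quotientKerEquivOfSurjective π hsurj).symm (π g)
      = (QuotientGroup.mk g : GQ ⧸ π.ker) := by
    rw [MulEquiv.symm_apply_eq]
    rfl
  unfold s56ecu_levIso
  rw [MulEquiv.trans_apply, h1]
  rfl

/-- The action of `π g` on `K` is the restriction of `g`. -/
theorem s56ecu_levIso_coe (g : GQ) (x : ↥(s56ecu_levK π)) :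
    ((s56ecu_levIso π hsm hsurj (π g) x : ↥(s56ecu_levK π)) : Qbar) = g (x : Qbar) := by
  have := s56ecu_levK_normal π hsm
  rw [s56ecu_levIso_apply]
  exact tl_coe_restrictNormalHom (s56ecu_levK π) g x

end Fermat.Agent.S56
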