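import Mathlib

/-!
# S56 / [GW-EC] / [EC-UNIT]: kernels of real matrices with negative off-diagonal entries and
vanishing column sums (prefix `s56ecu_`)

`A : ι → ι → ℝ` with `A i j < 0` for `i ≠ j` and `∑ i, A i j = 0` for all `j`.  A vector `v` with
`∑ j, A i j * v j = 0` for all `i` is zero, or has all coordinates positive, or all negative.
Hence `∑ j, v j ≠ 0` for `v ≠ 0` in the kernel, and the kernel is at most one-dimensional.
-/

set_option autoImplicit false

namespace Fermat.Agent.S56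

open Finset

variable {ι : Type*} [Fintype ι] [DecidableEq ι]

/-- If the positive part `P` of `v` is neither empty nor everything, summing the equations over
`P` gives a contradiction. -/
theorem s56ecu_pos_all {A : ι → ι → ℝ} (hneg : ∀ i j, i ≠ j → A i j < 0)
    (hcol : ∀ j, ∑ i, A i j = 0) {v : ι → ℝ} (hv : ∀ i, ∑ j, A i j * v j = 0)
    {i₀ : ι} (h0 : 0 < v i₀) : ∀ i, 0 < v i := by
  classical
  by_contra hcon
  push Not at hcon
  obtain ⟨i₁, hi₁⟩ := hcon
  set P : Finset ι := univ.filter (fun i => 0 < v i) with hP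
  have hi₀P : i₀ ∈ P := by simp [hP, h0]
  have hi₁P : i₁ ∉ P := by simp [hP, hi₁]
  -- sum of the equations over `P`
  have hsum : ∑ i ∈ P, ∑ j, A i j * v j = 0 := Finset.sum_eq_zero fun i _ => hv i
  rw [Finset.sum_comm] at hsum
  -- the inner sums
  have hterm : ∀ j, 0 ≤ (∑ i ∈ P, A i j) * v j := by
    intro j
    by_cases hj : j ∈ P
    · have hvj : 0 < v j := by simpa [hP] using hj
      have h1 : ∑ i ∈ P, A i j = - ∑ i ∈ univ \ P, A i j := by
        have := hcol j
        rw [← Finset.sum_sdiff (Finset.subset_univ P)] at this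
        linarith
      have h2 : ∑ i ∈ univ \ P, A i j ≤ 0 :=
        Finset.sum_nonpos fun i hi => by
          have hi' : i ∉ P := (Finset.mem_sdiff.mp hi).2
          exact (hneg i j (fun h => hi' (h ▸ hj))).le
      rw [h1]
      exact mul_nonneg (by linarith) hvj.le
    · have hvj : v j ≤ 0 := by
        have : ¬ 0 < v j := by simpa [hP] using hj
        linarith
      have h2 : ∑ i ∈ P, A i j ≤ 0 :=
        Finset.sum_nonpos fun i hi => (hneg i j (fun h => hj (h ▸ hi))).le
      exact mul_nonneg_of_nonpos_of_nonpos h2 hvj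
  have hi₀term : 0 < (∑ i ∈ P, A i i₀) * v i₀ := by
    have h1 : ∑ i ∈ P, A i i₀ = - ∑ i ∈ univ \ P, A i i₀ := by
      have := hcol i₀
      rw [← Finset.sum_sdiff (Finset.subset_univ P)] at this
      linarith
    have h2 : ∑ i ∈ univ \ P, A i i₀ < 0 := by
      have hi₁' : i₁ ∈ univ \ P := Finset.mem_sdiff.mpr ⟨Finset.mem_univ _, hi₁P⟩
      refine Finset.sum_neg' (fun i hi => ?_) ⟨i₁, hi₁', ?_⟩
      · have hi' : i ∉ P := (Finset.mem_sdiff.mp hi).2
        exact (hneg i i₀ (fun h => hi' (h ▸ hi₀P))).le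
      · exact hneg i₁ i₀ (fun h => hi₁P (h ▸ hi₀P))
    rw [h1]
    exact mul_pos (by linarith) h0
  have : 0 < ∑ j, ∑ i ∈ P, A i j * v j := by
    have h3 : ∀ j, ∑ i ∈ P, A i j * v j = (∑ i ∈ P, A i j) * v j := fun j => by
      rw [Finset.sum_mul]
    simp_rw [h3]
    exact Finset.sum_pos' (fun j _ => hterm j) ⟨i₀, Finset.mem_univ _, hi₀term⟩
  linarith

/-- Trichotomy for kernel vectors. -/
theorem s56ecu_kernel_trichotomy {A : ι → ι → ℝ} (hneg : ∀ i j, i ≠ j → A i j < 0)
    (hcol : ∀ j, ∑ i, A i j = 0) {v : ι → ℝ} (hv : ∀ i, ∑ j, A i j * v j = 0) :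
    v = 0 ∨ (∀ i, 0 < v i) ∨ (∀ i, v i < 0) := by
  by_cases h : v = 0
  · exact Or.inl h
  · right
    obtain ⟨i₀, hi₀⟩ : ∃ i, v i ≠ 0 := by
      by_contra hcon
      push Not at hcon
      exact h (funext hcon)
    rcases lt_or_gt_of_ne hi₀ with hlt | hgt
    · right
      have hv' : ∀ i, ∑ j, A i j * (-v) j = 0 := fun i => by
        simp only [Pi.neg_apply, mul_neg, Finset.sum_neg_distrib, hv i, neg_zero]
      have := s56ecu_pos_all hneg hcol hv' (i₀ := i₀) (by simpa using hlt)
      intro i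
      have := this i
      simpa using this
    · left
      exact s56ecu_pos_all hneg hcol hv hgt

/-- A nonzero kernel vector has nonzero coordinate sum. -/
theorem s56ecu_kernel_sum_ne_zero [Nonempty ι] {A : ι → ι → ℝ}
    (hneg : ∀ i j, i ≠ j → A i j < 0)
    (hcol : ∀ j, ∑ i, A i j = 0) {v : ι → ℝ} (hv : ∀ i, ∑ j, A i j * v j = 0) (hv0 : v ≠ 0) :
    ∑ i, v i ≠ 0 := by
  rcases s56ecu_kernel_trichotomy hneg hcol hv with h | h | h
  · exact absurd h hv0
  · exact (Finset.sum_pos (fun i _ => h i) Finset.univ_nonempty).ne'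
  · exact (Finset.sum_neg (fun i _ => h i) Finset.univ_nonempty).ne

/-- A kernel vector with vanishing coordinate sum is zero. -/
theorem s56ecu_kernel_eq_zero_of_sum [Nonempty ι] {A : ι → ι → ℝ}
    (hneg : ∀ i j, i ≠ j → A i j < 0)
    (hcol : ∀ j, ∑ i, A i j = 0) {v : ι → ℝ} (hv : ∀ i, ∑ j, A i j * v j = 0)
    (hs : ∑ i, v i = 0) : v = 0 := by
  by_contra h
  exact s56ecu_kernel_sum_ne_zero hneg hcol hv h hs

end Fermat.Agent.S56
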