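import Mathlib
import Fermat.Agent.S55.SUnit.Galois
import Fermat.Agent.S56.GW.EC.Unit.MMatrix

/-!
# S56 / [GW-EC] / [EC-UNIT], sequence (U-b) (prefix `s56ecu_`)

`K/F` an extension of number fields, `G = Gal(K/F)` (any finite group of automorphisms).
We construct a `G`-equivariant family of units `η_w`, `w` running through the infinite places of
`K`, with `log w'(η_w) < 0` for `w' ≠ w`, and the `G`-equivariant homomorphism
`ψ : ℤ[S_∞(K)] → 𝓞_K^×`, `w ↦ η_w`.  Its kernel is `ℤ v` for a `G`-invariant vector `v` and its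
cokernel is finite.
-/

set_option autoImplicit false
set_option linter.unusedSectionVars false

namespace Fermat.Agent.S56

open NumberField NumberField.InfinitePlace NumberField.Units Fermat.Agent.S55 Module

variable {F K : Type} [Field F] [NumberField F] [Field K] [NumberField K] [Algebra F K]

/-- The action of `σ ∈ Gal(K/F)` on the units of `𝓞 K`. -/
noncomputable def s56ecu_uAct (σ : Gal(K/F)) : (𝓞 K)ˣ ≃* (𝓞 K)ˣ :=
  Units.mapEquiv (su_oEquiv σ).toMulEquiv

@[simp] theorem s56ecu_uAct_coe (σ : Gal(K/F)) (u : (𝓞 K)ˣ) :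
    ((s56ecu_uAct σ u : (𝓞 K)ˣ) : K) = σ (u : K) := rfl

theorem s56ecu_uAct_mul (σ τ : Gal(K/F)) (u : (𝓞 K)ˣ) :
    s56ecu_uAct (σ * τ) u = s56ecu_uAct σ (s56ecu_uAct τ u) := by
  apply Units.ext
  apply RingOfIntegers.ext
  rfl

@[simp] theorem s56ecu_uAct_one (u : (𝓞 K)ˣ) : s56ecu_uAct (1 : Gal(K/F)) u = u := by
  apply Units.ext
  apply RingOfIntegers.ext
  rfl

/-- `w (σ x) = (σ⁻¹ • w) x`. -/
theorem s56ecu_place_apply (σ : Gal(K/F)) (w : InfinitePlace K) (x : K) :
    w (σ x) = (σ⁻¹ • w) x := by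
  rw [InfinitePlace.smul_apply]
  rfl

/-- Mathlib's Dirichlet unit attached to the place `w`. -/
noncomputable def s56ecu_u0 (w : InfinitePlace K) : (𝓞 K)ˣ :=
  (dirichletUnitTheorem.exists_unit K w).choose

theorem s56ecu_u0_spec (w w' : InfinitePlace K) (h : w' ≠ w) :
    Real.log (w' ((s56ecu_u0 w : (𝓞 K)ˣ) : K)) < 0 :=
  (dirichletUnitTheorem.exists_unit K w).choose_spec w' h

noncomputable instance s56ecu_fintypeGal : Fintype Gal(K/F) := Fintype.ofFinite _

variable (F K) in
/-- The equivariant family of units. -/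
noncomputable def s56ecu_eta (w : InfinitePlace K) : (𝓞 K)ˣ :=
  ∏ σ : Gal(K/F), s56ecu_uAct σ (s56ecu_u0 (σ⁻¹ • w))

theorem s56ecu_eta_equivariant (τ : Gal(K/F)) (w : InfinitePlace K) :
    s56ecu_uAct τ (s56ecu_eta F K w) = s56ecu_eta F K (τ • w) := by
  rw [s56ecu_eta, s56ecu_eta, map_prod]
  refine Fintype.prod_equiv (Equiv.mulLeft τ) _ _ fun σ => ?_
  rw [Equiv.coe_mulLeft, s56ecu_uAct_mul, mul_inv_rev, mul_smul, inv_smul_smul]

/-- the logarithm of a unit at a place, as an additive map -/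
noncomputable def s56ecu_logAt (w : InfinitePlace K) : Additive (𝓞 K)ˣ →+ ℝ where
  toFun x := Real.log (w ((x.toMul : (𝓞 K)ˣ) : K))
  map_zero' := by simp
  map_add' x y := by
    change Real.log (w (((x.toMul * y.toMul : (𝓞 K)ˣ)) : K)) = _
    rw [NumberField.Units.coe_mul, map_mul, Real.log_mul (pos_at_place _ w).ne'
      (pos_at_place _ w).ne']

@[simp] theorem s56ecu_logAt_ofMul (w : InfinitePlace K) (u : (𝓞 K)ˣ) :
    s56ecu_logAt w (Additive.ofMul u) = Real.log (w (u : K)) := rfl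

/-- `log w'(σ u) = log (σ⁻¹ w')(u)`. -/
theorem s56ecu_logAt_uAct (σ : Gal(K/F)) (w : InfinitePlace K) (u : (𝓞 K)ˣ) :
    s56ecu_logAt w (Additive.ofMul (s56ecu_uAct σ u)) = s56ecu_logAt (σ⁻¹ • w) (Additive.ofMul u) := by
  rw [s56ecu_logAt_ofMul, s56ecu_logAt_ofMul, s56ecu_uAct_coe, s56ecu_place_apply]

/-- The sign property of the equivariant family. -/
theorem s56ecu_eta_neg (w w' : InfinitePlace K) (h : w' ≠ w) :
    Real.log (w' ((s56ecu_eta F K w : (𝓞 K)ˣ) : K)) < 0 := by
  have h1 : Real.log (w' ((s56ecu_eta F K w : (𝓞 K)ˣ) : K))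
      = ∑ σ : Gal(K/F), s56ecu_logAt ((σ⁻¹ : Gal(K/F)) • w')
          (Additive.ofMul (s56ecu_u0 ((σ⁻¹ : Gal(K/F)) • w))) := by
    rw [← s56ecu_logAt_ofMul, s56ecu_eta, ofMul_prod, map_sum]
    exact Finset.sum_congr rfl fun σ _ => s56ecu_logAt_uAct σ w' _
  rw [h1]
  refine Finset.sum_neg (fun σ _ => ?_) Finset.univ_nonempty
  rw [s56ecu_logAt_ofMul]
  exact s56ecu_u0_spec _ _ (fun hh => h (smul_left_cancel _ hh))

/-! ### The modules -/

/-- The permutation module `ℤ[X]` of a `G`-set `X`, realised as functions `X → ℤ` with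
`(g • a) x = a (g⁻¹ • x)` (`G` is a phantom argument recording the acting group). -/
structure s56ecu_Perm (G X : Type) where
  /-- the underlying function -/
  toFun : X → ℤ

namespace s56ecu_Perm

variable {G X : Type}

instance : CoeFun (s56ecu_Perm G X) (fun _ => X → ℤ) := ⟨toFun⟩

@[ext] theorem ext {a b : s56ecu_Perm G X} (h : ∀ x, a x = b x) : a = b := by
  cases a; cases b; congr; exact funext h

/-- the equivalence with functions -/
def equiv : s56ecu_Perm G X ≃ (X → ℤ) where
  toFun a := a.toFun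
  invFun f := ⟨f⟩
  left_inv _ := rfl
  right_inv _ := rfl

instance instAddCommGroup : AddCommGroup (s56ecu_Perm G X) := equiv.addCommGroup

@[simp] theorem mk_apply (f : X → ℤ) (x : X) : (⟨f⟩ : s56ecu_Perm G X) x = f x := rfl
@[simp] theorem add_apply (a b : s56ecu_Perm G X) (x : X) : (a + b) x = a x + b x := rfl
@[simp] theorem zero_apply (x : X) : (0 : s56ecu_Perm G X) x = 0 := rfl
@[simp] theorem neg_apply (a : s56ecu_Perm G X) (x : X) : (-a) x = -a x := rfl
@[simp] theorem sub_apply (a b : s56ecu_Perm G X) (x : X) : (a - b) x = a x - b x := rfl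

/-- the additive equivalence with functions -/
def addEquiv : s56ecu_Perm G X ≃+ (X → ℤ) := { equiv with map_add' := fun _ _ => rfl }

@[simp] theorem addEquiv_apply (a : s56ecu_Perm G X) (x : X) : addEquiv a x = a x := rfl

@[simp] theorem zsmul_apply (n : ℤ) (a : s56ecu_Perm G X) (x : X) : (n • a) x = n * a x := by
  rw [← addEquiv_apply, map_zsmul, Pi.smul_apply, smul_eq_mul, addEquiv_apply]

instance instDistribMulAction [Group G] [MulAction G X] :
    DistribMulAction G (s56ecu_Perm G X) where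
  smul g a := ⟨fun x => a (g⁻¹ • x)⟩
  one_smul a := by
    ext x
    change a ((1 : G)⁻¹ • x) = a x
    rw [inv_one, one_smul]
  mul_smul g h a := by
    ext x
    change a ((g * h)⁻¹ • x) = a (h⁻¹ • g⁻¹ • x)
    rw [mul_inv_rev, mul_smul]
  smul_zero g := rfl
  smul_add g a b := rfl

theorem smul_apply [Group G] [MulAction G X] (g : G)
    (a : s56ecu_Perm G X) (x : X) : (g • a) x = a (g⁻¹ • x) := rfl

/-- the coordinate sum -/
def sum [Fintype X] : s56ecu_Perm G X →+ ℤ where
  toFun a := ∑ x, a x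
  map_zero' := by simp
  map_add' a b := by simp only [add_apply, Finset.sum_add_distrib]

theorem sum_apply [Fintype X] (a : s56ecu_Perm G X) : sum a = ∑ x, a x := rfl

theorem sum_smul [Fintype X] [Group G] [MulAction G X] (g : G) (a : s56ecu_Perm G X) :
    sum (g • a) = sum a := by
  rw [sum_apply, sum_apply]
  exact Fintype.sum_equiv (MulAction.toPerm g⁻¹) _ _ fun x => rfl

end s56ecu_Perm

/-- The action of `Gal(K/F)` on the units of `𝓞 K`, written additively. -/
noncomputable instance s56ecu_unitsAction : DistribMulAction Gal(K/F) (Additive (𝓞 K)ˣ) where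
  smul g x := Additive.ofMul (s56ecu_uAct g (Additive.toMul x))
  one_smul x := by
    change Additive.ofMul (s56ecu_uAct (1 : Gal(K/F)) (Additive.toMul x)) = x
    rw [s56ecu_uAct_one]; rfl
  mul_smul g h x := by
    change Additive.ofMul (s56ecu_uAct (g * h) (Additive.toMul x)) = _
    rw [s56ecu_uAct_mul]; rfl
  smul_zero g := by
    change Additive.ofMul (s56ecu_uAct g (Additive.toMul (0 : Additive (𝓞 K)ˣ))) = _
    rw [toMul_zero, map_one]; rfl
  smul_add g x y := by
    change Additive.ofMul (s56ecu_uAct g (Additive.toMul (x + y : Additive (𝓞 K)ˣ))) = _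
    rw [toMul_add, map_mul]; rfl

theorem s56ecu_units_smul_def (g : Gal(K/F)) (x : Additive (𝓞 K)ˣ) :
    g • x = Additive.ofMul (s56ecu_uAct g (Additive.toMul x)) := rfl

variable (F K) in
/-- `ψ : ℤ[S_∞(K)] → 𝓞_K^×`, `w ↦ η_w`. -/
noncomputable def s56ecu_psi : s56ecu_Perm Gal(K/F) (InfinitePlace K) →+ Additive (𝓞 K)ˣ :=
  (Fintype.linearCombination ℤ
    (fun w : InfinitePlace K => (Additive.ofMul (s56ecu_eta F K w) : Additive (𝓞 K)ˣ))).toAddMonoidHom.comp
    s56ecu_Perm.addEquiv.toAddMonoidHom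

theorem s56ecu_psi_apply (a : s56ecu_Perm Gal(K/F) (InfinitePlace K)) :
    s56ecu_psi F K a = ∑ w : InfinitePlace K,
      (a w) • (Additive.ofMul (s56ecu_eta F K w) : Additive (𝓞 K)ˣ) := by
  exact Fintype.linearCombination_apply ℤ _ (s56ecu_Perm.toFun a)

theorem s56ecu_psi_equivariant (g : Gal(K/F)) (a : s56ecu_Perm Gal(K/F) (InfinitePlace K)) :
    s56ecu_psi F K (g • a) = g • s56ecu_psi F K a := by
  rw [s56ecu_psi_apply, s56ecu_psi_apply, s56ecu_units_smul_def]
  have h1 : ∀ y : Additive (𝓞 K)ˣ, Additive.ofMul (s56ecu_uAct g (Additive.toMul y))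
      = (MonoidHom.toAdditive (s56ecu_uAct (F := F) g).toMonoidHom) y := fun y => rfl
  rw [h1, map_sum]
  refine (Fintype.sum_equiv (MulAction.toPerm g) _ _ fun w => ?_).symm
  rw [map_zsmul, MulAction.toPerm_apply, s56ecu_Perm.smul_apply, inv_smul_smul]
  congr 1
  change Additive.ofMul (s56ecu_uAct g (s56ecu_eta F K w)) = _
  rw [s56ecu_eta_equivariant]

/-! ### The kernel of `ψ` -/

variable (F K) in
/-- The matrix `A w' w = mult w' * log w'(η_w)`. -/
noncomputable def s56ecu_A (w' w : InfinitePlace K) : ℝ :=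
  (mult w' : ℝ) * Real.log (w' ((s56ecu_eta F K w : (𝓞 K)ˣ) : K))

theorem s56ecu_A_neg (w' w : InfinitePlace K) (h : w' ≠ w) : s56ecu_A F K w' w < 0 := by
  refine mul_neg_of_pos_of_neg ?_ (s56ecu_eta_neg w w' h)
  have := mult_pos (w := w')
  exact_mod_cast this

theorem s56ecu_A_col (w : InfinitePlace K) : ∑ w', s56ecu_A F K w' w = 0 :=
  sum_mult_mul_log (s56ecu_eta F K w)

theorem s56ecu_psi_ker_real {a : s56ecu_Perm Gal(K/F) (InfinitePlace K)}
    (ha : s56ecu_psi F K a = 0) (w' : InfinitePlace K) :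
    ∑ w, s56ecu_A F K w' w * ((a w : ℤ) : ℝ) = 0 := by
  have h1 := congrArg (s56ecu_logAt w') ha
  rw [s56ecu_psi_apply, map_sum, map_zero] at h1
  have h2 : ∀ w : InfinitePlace K, s56ecu_logAt w'
      ((a w) • (Additive.ofMul (s56ecu_eta F K w) : Additive (𝓞 K)ˣ))
      = ((a w : ℤ) : ℝ) * Real.log (w' ((s56ecu_eta F K w : (𝓞 K)ˣ) : K)) := fun w => by
    rw [map_zsmul, s56ecu_logAt_ofMul, zsmul_eq_mul]
  simp_rw [h2] at h1
  have h3 : ∑ w, s56ecu_A F K w' w * ((a w : ℤ) : ℝ)
      = (mult w' : ℝ) * ∑ w, ((a w : ℤ) : ℝ) * Real.log (w' ((s56ecu_eta F K w : (𝓞 K)ˣ) : K)) := by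
    rw [Finset.mul_sum]
    refine Finset.sum_congr rfl fun w _ => ?_
    rw [s56ecu_A]; ring
  rw [h3, h1, mul_zero]

/-- A kernel vector with vanishing coordinate sum is zero. -/
theorem s56ecu_psi_ker_sum {a : s56ecu_Perm Gal(K/F) (InfinitePlace K)}
    (ha : s56ecu_psi F K a = 0) (hs : s56ecu_Perm.sum a = 0) : a = 0 := by
  classical
  have h1 := s56ecu_kernel_eq_zero_of_sum (A := s56ecu_A F K) (v := fun w => ((a w : ℤ) : ℝ))
    (fun i j hij => s56ecu_A_neg i j hij) s56ecu_A_col (s56ecu_psi_ker_real ha)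
    (by
      have h2 : ((∑ w, a w : ℤ) : ℝ) = 0 := by rw [← s56ecu_Perm.sum_apply, hs, Int.cast_zero]
      rw [Int.cast_sum] at h2
      exact h2)
  ext w
  have := congrFun h1 w
  simp only [Pi.zero_apply, Int.cast_eq_zero] at this
  exact this

/-! ### Rank considerations -/

theorem s56ecu_finrank_perm (G X : Type) [Fintype X] :
    finrank ℤ (s56ecu_Perm G X) = Fintype.card X := by
  rw [← Module.finrank_pi (R := ℤ) (ι := X)]
  exact LinearEquiv.finrank_eq (s56ecu_Perm.addEquiv (G := G) (X := X)).toIntLinearEquiv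

instance s56ecu_Perm.instFinite (G X : Type) [Finite X] : Module.Finite ℤ (s56ecu_Perm G X) :=
  Module.Finite.equiv (s56ecu_Perm.addEquiv (G := G) (X := X)).toIntLinearEquiv.symm

theorem s56ecu_psi_not_injective : ¬ Function.Injective (s56ecu_psi F K) := by
  intro hinj
  have h1 := LinearMap.finrank_le_finrank_of_injective (f := (s56ecu_psi F K).toIntLinearMap) hinj
  rw [s56ecu_finrank_perm, NumberField.Units.finrank_eq, NumberField.Units.rank] at h1
  have h2 : 0 < Fintype.card (InfinitePlace K) := Fintype.card_pos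
  omega

/-- The kernel of `ψ` is generated by a nonzero `G`-invariant vector. -/
theorem s56ecu_exists_generator :
    ∃ v : s56ecu_Perm Gal(K/F) (InfinitePlace K), v ≠ 0 ∧ (∀ g : Gal(K/F), g • v = v) ∧
      ∀ a, s56ecu_psi F K a = 0 ↔ ∃ n : ℤ, a = n • v := by
  obtain ⟨d, hd⟩ := Int.subgroup_cyclic ((s56ecu_psi F K).ker.map s56ecu_Perm.sum)
  have hdmem : d ∈ (s56ecu_psi F K).ker.map s56ecu_Perm.sum := by
    rw [hd]; exact AddSubgroup.mem_closure_singleton_self d
  obtain ⟨v, hvker, hvd⟩ := hdmem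
  rw [SetLike.mem_coe, AddMonoidHom.mem_ker] at hvker
  have hiff : ∀ a, s56ecu_psi F K a = 0 ↔ ∃ n : ℤ, a = n • v := by
    intro a
    constructor
    · intro ha
      have h1 : s56ecu_Perm.sum a ∈ (s56ecu_psi F K).ker.map s56ecu_Perm.sum :=
        ⟨a, ha, rfl⟩
      rw [hd, AddSubgroup.mem_closure_singleton] at h1
      obtain ⟨n, hn⟩ := h1
      refine ⟨n, ?_⟩
      have h2 : s56ecu_psi F K (a - n • v) = 0 := by
        rw [map_sub, map_zsmul, ha, hvker, smul_zero, sub_zero]
      have h3 : s56ecu_Perm.sum (a - n • v) = 0 := by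
        rw [map_sub, map_zsmul, hvd, hn, sub_self]
      exact sub_eq_zero.mp (s56ecu_psi_ker_sum h2 h3)
    · rintro ⟨n, rfl⟩
      rw [map_zsmul, hvker, smul_zero]
  refine ⟨v, ?_, ?_, hiff⟩
  · rintro rfl
    apply s56ecu_psi_not_injective (F := F) (K := K)
    rw [injective_iff_map_eq_zero]
    intro a ha
    obtain ⟨n, hn⟩ := (hiff a).mp ha
    rw [hn, smul_zero]
  · intro g
    have h2 : s56ecu_psi F K (g • v - v) = 0 := by
      rw [map_sub, s56ecu_psi_equivariant, hvker, smul_zero, sub_zero]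
    have h3 : s56ecu_Perm.sum (g • v - v) = 0 := by
      rw [map_sub, s56ecu_Perm.sum_smul, sub_self]
    exact sub_eq_zero.mp (s56ecu_psi_ker_sum h2 h3)

/-- A general criterion: a `ℤ`-linear map between finitely generated `ℤ`-modules whose kernel
injects into `ℤ` and with `finrank M = finrank N + 1` has finite cokernel. -/
theorem s56ecu_finite_coker_of_rank {M N : Type*} [AddCommGroup M] [AddCommGroup N]
    [Module.Finite ℤ M] [Module.Finite ℤ N] (L : M →ₗ[ℤ] N) (lam : M →ₗ[ℤ] ℤ)
    (hlam : ∀ a, L a = 0 → lam a = 0 → a = 0) (hrank : finrank ℤ M = finrank ℤ N + 1) :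
    Finite (N ⧸ LinearMap.range L) := by
  have h1 : finrank ℤ (LinearMap.ker L) ≤ 1 := by
    have hinj : Function.Injective (lam.comp (LinearMap.ker L).subtype) := by
      rw [injective_iff_map_eq_zero]
      intro a ha
      exact Subtype.ext (hlam a.1 (LinearMap.mem_ker.mp a.2) ha)
    have := LinearMap.finrank_le_finrank_of_injective hinj
    rwa [Module.finrank_self] at this
  have h2 := Submodule.finrank_quotient_add_finrank (LinearMap.ker L)
  have h3 := LinearEquiv.finrank_eq L.quotKerEquivRange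
  have h4 := Submodule.finrank_quotient_add_finrank (LinearMap.range L)
  have h5 : finrank ℤ (N ⧸ LinearMap.range L) = 0 := by omega
  exact Module.finite_of_fg_torsion _ (Module.finrank_eq_zero_iff_isTorsion.mp h5)

theorem s56ecu_psi_finite_coker :
    Finite (Additive (𝓞 K)ˣ ⧸ (s56ecu_psi F K).range) := by
  have h := s56ecu_finite_coker_of_rank (s56ecu_psi F K).toIntLinearMap
    (s56ecu_Perm.sum (G := Gal(K/F)) (X := InfinitePlace K)).toIntLinearMap
    (fun a ha hs => s56ecu_psi_ker_sum ha hs)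
    (by
      rw [s56ecu_finrank_perm, NumberField.Units.finrank_eq, NumberField.Units.rank]
      have h2 : 0 < Fintype.card (InfinitePlace K) := Fintype.card_pos
      omega)
  have he : (LinearMap.range (s56ecu_psi F K).toIntLinearMap).toAddSubgroup
      = (s56ecu_psi F K).range := by
    ext x
    simp [AddMonoidHom.mem_range]
  rw [← he]
  exact h

end Fermat.Agent.S56
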