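import Mathlib
import Fermat.Agent.S55.SUnit.Rank
import Fermat.Agent.S55.SUnit.Galois
import Fermat.Agent.S56.GW.EC.Unit.InfSeq

/-!
# S56 / [GW-EC] / [EC-UNIT], sequence (U-a) (prefix `s56ecu_`)

`K/F` an extension of number fields, `G = Gal(K/F)`, `S` a finite set of primes of `F`,
`T` the set of primes of `K` above `S`.  The `G`-equivariant exact sequence
`0 → 𝓞_K^× → E_T --ord--> ℤ[T]` with finite cokernel.
-/

set_option autoImplicit false
set_option linter.unusedSectionVars false

namespace Fermat.Agent.S56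

open NumberField IsDedekindDomain Fermat.Agent.S55 Module

variable {F K : Type} [Field F] [NumberField F] [Field K] [NumberField K] [Algebra F K]

theorem s56ecu_primeAct_mul (σ τ : Gal(K/F)) (w : HeightOneSpectrum (𝓞 K)) :
    su_primeAct (σ * τ) w = su_primeAct σ (su_primeAct τ w) := by
  apply HeightOneSpectrum.ext
  ext x
  rfl

theorem s56ecu_primeAct_one (w : HeightOneSpectrum (𝓞 K)) :
    su_primeAct (1 : Gal(K/F)) w = w := by
  apply HeightOneSpectrum.ext
  ext x
  rfl

variable (S : Finset (HeightOneSpectrum (𝓞 F)))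

/-- The action of `Gal(K/F)` on the primes of `K` above `S`. -/
noncomputable instance s56ecu_primesAction : MulAction Gal(K/F) ↥(su_primesAbove F K S) where
  smul σ w := ⟨su_primeAct σ w.1, (su_primeAct_mem_primesAbove σ).mpr w.2⟩
  one_smul w := Subtype.ext (s56ecu_primeAct_one w.1)
  mul_smul σ τ w := Subtype.ext (s56ecu_primeAct_mul σ τ w.1)

theorem s56ecu_primes_smul_coe (σ : Gal(K/F)) (w : ↥(su_primesAbove F K S)) :
    ((σ • w : ↥(su_primesAbove F K S)) : HeightOneSpectrum (𝓞 K)) = su_primeAct σ w.1 := rfl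

/-- The action of `Gal(K/F)` on the `T`-units, written additively. -/
noncomputable instance s56ecu_ETAction :
    DistribMulAction Gal(K/F) (Additive ↥(su_ET F K S)) where
  smul g x := Additive.ofMul (su_unitHom S g (Additive.toMul x))
  one_smul x := by
    change Additive.ofMul (su_unitHom S (1 : Gal(K/F)) (Additive.toMul x)) = x
    rw [su_unitHom_one]; rfl
  mul_smul g h x := by
    change Additive.ofMul (su_unitHom S (g * h) (Additive.toMul x)) = _
    rw [su_unitHom_mul]; rfl
  smul_zero g := by
    change Additive.ofMul (su_unitHom S g (Additive.toMul (0 : Additive ↥(su_ET F K S)))) = _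
    rw [toMul_zero, map_one]; rfl
  smul_add g x y := by
    change Additive.ofMul (su_unitHom S g (Additive.toMul (x + y : Additive ↥(su_ET F K S)))) = _
    rw [toMul_add, map_mul]; rfl

theorem s56ecu_ET_smul_def (g : Gal(K/F)) (x : Additive ↥(su_ET F K S)) :
    g • x = Additive.ofMul (su_unitHom S g (Additive.toMul x)) := rfl

/-- `ord : E_T → ℤ[T]`. -/
noncomputable def s56ecu_ord :
    Additive ↥(su_ET F K S) →+ s56ecu_Perm Gal(K/F) ↥(su_primesAbove F K S) :=
  (s56ecu_Perm.addEquiv (G := Gal(K/F)) (X := ↥(su_primesAbove F K S))).symm.toAddMonoidHom.comp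
    (su_ordT K (su_primesAbove F K S)).toAddMonoidHom

theorem s56ecu_ord_apply (x : Additive ↥(su_ET F K S)) (w : ↥(su_primesAbove F K S)) :
    s56ecu_ord S x w = su_ord K w.1 (Additive.ofMul ((Additive.toMul x : ↥(su_ET F K S)) : Kˣ)) :=
  rfl

theorem s56ecu_ord_equivariant (g : Gal(K/F)) (x : Additive ↥(su_ET F K S)) :
    s56ecu_ord S (g • x) = g • s56ecu_ord S x := by
  ext w
  rw [s56ecu_Perm.smul_apply, s56ecu_ord_apply, s56ecu_ord_apply]
  apply WithZero.exp_injective
  rw [← su_valuation_eq_exp_ord, ← su_valuation_eq_exp_ord]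
  have h1 := su_valuation_act g (g⁻¹ • w : ↥(su_primesAbove F K S)).1
    (((Additive.toMul x : ↥(su_ET F K S)) : Kˣ) : K)
  rw [← s56ecu_primes_smul_coe, smul_inv_smul] at h1
  exact h1

/-- The inclusion of the units into the `T`-units. -/
noncomputable def s56ecu_incl : Additive (𝓞 K)ˣ →+ Additive ↥(su_ET F K S) :=
  (su_unitsLin K (su_primesAbove F K S)).toAddMonoidHom

theorem s56ecu_incl_injective : Function.Injective (s56ecu_incl (F := F) (K := K) S) :=
  su_unitsLin_injective K _

theorem s56ecu_incl_equivariant (g : Gal(K/F)) (x : Additive (𝓞 K)ˣ) :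
    s56ecu_incl S (g • x) = g • s56ecu_incl S x := by
  apply Additive.toMul.injective
  apply Subtype.ext
  apply Units.ext
  rfl

/-- Exactness at `E_T`. -/
theorem s56ecu_ord_eq_zero_iff (x : Additive ↥(su_ET F K S)) :
    s56ecu_ord S x = 0 ↔ ∃ u, s56ecu_incl S u = x := by
  have h := su_ker_ordT K (su_primesAbove F K S)
  have h1 : s56ecu_ord S x = 0 ↔ x ∈ LinearMap.ker (su_ordT K (su_primesAbove F K S)) := by
    rw [LinearMap.mem_ker]
    constructor
    · intro hx
      funext w
      exact congrArg (fun a : s56ecu_Perm Gal(K/F) ↥(su_primesAbove F K S) => a w) hx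
    · intro hx
      ext w
      exact congrFun hx w
  rw [h1, h, LinearMap.mem_range]
  rfl

/-- The cokernel of `ord` is killed by the class number. -/
theorem s56ecu_classNumber_smul_mem (a : s56ecu_Perm Gal(K/F) ↥(su_primesAbove F K S)) :
    (-(classNumber K : ℤ)) • a ∈ (s56ecu_ord S).range := by
  obtain ⟨x, hx⟩ := su_smul_mem_range_ordT K (su_primesAbove F K S) a.toFun
  refine ⟨x, ?_⟩
  ext w
  have := congrFun hx w
  rw [s56ecu_Perm.zsmul_apply]
  rw [Pi.smul_apply, smul_eq_mul] at this
  exact this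

theorem s56ecu_ord_finite_coker :
    Finite (s56ecu_Perm Gal(K/F) ↥(su_primesAbove F K S) ⧸ (s56ecu_ord (K := K) S).range) := by
  have hh : (-(classNumber K : ℤ)) ≠ 0 := by
    rw [neg_ne_zero]; exact_mod_cast (classNumber_ne_zero K)
  have e : (LinearMap.range (s56ecu_ord (K := K) S).toIntLinearMap).toAddSubgroup
      = (s56ecu_ord (K := K) S).range := by
    ext x; simp [AddMonoidHom.mem_range]
  have hfin : Finite (s56ecu_Perm Gal(K/F) ↥(su_primesAbove F K S) ⧸
      LinearMap.range (s56ecu_ord (K := K) S).toIntLinearMap) := by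
    apply Module.finite_of_fg_torsion
    intro q
    induction q using Submodule.Quotient.induction_on with
    | _ a =>
      refine ⟨⟨-(classNumber K : ℤ), mem_nonZeroDivisors_of_ne_zero hh⟩, ?_⟩
      change (-(classNumber K : ℤ)) • (Submodule.Quotient.mk a :
        _ ⧸ LinearMap.range (s56ecu_ord (K := K) S).toIntLinearMap) = 0
      rw [← Submodule.Quotient.mk_smul, Submodule.Quotient.mk_eq_zero]
      obtain ⟨x, hx⟩ := s56ecu_classNumber_smul_mem S a
      exact ⟨x, hx⟩
  rw [← e]
  exact hfin

end Fermat.Agent.S56
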