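import Mathlib
import Fermat.Agent.S56.GW.EC.Unit.InfSeq
import Fermat.Agent.S56.GW.EC.Unit.FinSeq

/-!
# S56 / [GW-EC] / [EC-UNIT]: the unit identity for additive invariants (prefix `s56ecu_`)

`K/F` an extension of number fields, `G = Gal(K/F)`, `S` a finite set of primes of `F`,
`T` the primes of `K` above `S`.  For every invariant `μ` of finitely generated abelian groups with
`G`-action which is additive on equivariant exact sequences `0 → M₁ → M₂ → M₃` with finite
cokernel, we prove

`μ(E_T) + μ(ℤ) = μ(ℤ[T]) + μ(ℤ[S_∞(K)])`.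

The same for every subgroup `B ≤ G` (restriction of the actions).
-/

set_option autoImplicit false
set_option linter.unusedSectionVars false

namespace Fermat.Agent.S56

open NumberField IsDedekindDomain Fermat.Agent.S55 Module

/-- An additive invariant of finitely generated abelian groups with an action of `G`, with values
in the abelian group `A`: additive on equivariant exact sequences `0 → M₁ → M₂ → M₃` with finite
cokernel.  (Equivalently: additive on short exact sequences and zero on finite groups.) -/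
structure s56ecu_AddInv (G : Type) [Group G] (A : Type) [AddCommGroup A] where
  /-- the invariant -/
  μ : (M : Type) → [AddCommGroup M] → [DistribMulAction G M] → A
  /-- additivity -/
  add4 : ∀ (M₁ M₂ M₃ : Type) [AddCommGroup M₁] [AddCommGroup M₂] [AddCommGroup M₃]
    [DistribMulAction G M₁] [DistribMulAction G M₂] [DistribMulAction G M₃]
    [Module.Finite ℤ M₁] [Module.Finite ℤ M₂] [Module.Finite ℤ M₃]
    (ι : M₁ →+ M₂) (f : M₂ →+ M₃),
    (∀ (σ : G) (x : M₁), ι (σ • x) = σ • ι x) → (∀ (σ : G) (x : M₂), f (σ • x) = σ • f x) →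
    Function.Injective ι → (∀ y, f y = 0 ↔ ∃ x, ι x = y) → Finite (M₃ ⧸ f.range) →
    μ M₂ = μ M₁ + μ M₃

/-- Restriction of an additive invariant of `B`-modules to `G`-modules, `B ≤ G`. -/
def s56ecu_AddInv.restrict {G : Type} [Group G] {A : Type} [AddCommGroup A] (B : Subgroup G)
    (m : s56ecu_AddInv ↥B A) : s56ecu_AddInv G A where
  μ M _ _ := m.μ M
  add4 M₁ M₂ M₃ _ _ _ _ _ _ _ _ _ ι f hι hf hinj hex hfin :=
    m.add4 M₁ M₂ M₃ ι f (fun σ x => hι σ.1 x) (fun σ x => hf σ.1 x) hinj hex hfin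

variable {F K : Type} [Field F] [NumberField F] [Field K] [NumberField K] [Algebra F K]

/-- The inclusion `ℤ → ℤ[X]`, `n ↦ n • v`. -/
def s56ecu_diag {G X : Type} (v : s56ecu_Perm G X) : s56ecu_Perm G Unit →+ s56ecu_Perm G X where
  toFun a := (a ()) • v
  map_zero' := by rw [s56ecu_Perm.zero_apply, zero_smul]
  map_add' a b := by rw [s56ecu_Perm.add_apply, add_smul]

theorem s56ecu_diag_apply {G X : Type} (v : s56ecu_Perm G X) (a : s56ecu_Perm G Unit) :
    s56ecu_diag v a = (a ()) • v := rfl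

theorem s56ecu_diag_equivariant {G X : Type} [Group G] [MulAction G X] (v : s56ecu_Perm G X)
    (hv : ∀ g : G, g • v = v) (g : G) (a : s56ecu_Perm G Unit) :
    s56ecu_diag v (g • a) = g • s56ecu_diag v a := by
  rw [s56ecu_diag_apply, s56ecu_diag_apply, s56ecu_Perm.smul_apply]
  have h : g • ((a ()) • v) = (a ()) • (g • v) :=
    map_zsmul (DistribSMul.toAddMonoidHom (s56ecu_Perm G X) g) (a ()) v
  rw [h, hv]

theorem s56ecu_diag_injective {G X : Type} (v : s56ecu_Perm G X) (hv : v ≠ 0) :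
    Function.Injective (s56ecu_diag v) := by
  rw [injective_iff_map_eq_zero]
  intro a ha
  have hx : ∃ x, v x ≠ 0 := by
    by_contra hcon
    push Not at hcon
    exact hv (s56ecu_Perm.ext hcon)
  obtain ⟨x, hx⟩ := hx
  have h1 := congrArg (fun b : s56ecu_Perm G X => b x) ha
  simp only [s56ecu_diag_apply, s56ecu_Perm.zsmul_apply, s56ecu_Perm.zero_apply] at h1
  ext u
  cases u
  rcases mul_eq_zero.mp h1 with h | h
  · exact h
  · exact absurd h hx

/-- The unit sequence (U-b) in the additive-invariant form. -/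
theorem s56ecu_inf_identity {A : Type} [AddCommGroup A] (m : s56ecu_AddInv Gal(K/F) A) :
    m.μ (s56ecu_Perm Gal(K/F) (InfinitePlace K))
      = m.μ (s56ecu_Perm Gal(K/F) Unit) + m.μ (Additive (𝓞 K)ˣ) := by
  obtain ⟨v, hv0, hvinv, hker⟩ := s56ecu_exists_generator (F := F) (K := K)
  refine m.add4 _ _ _ (s56ecu_diag v) (s56ecu_psi F K) (s56ecu_diag_equivariant v hvinv)
    s56ecu_psi_equivariant (s56ecu_diag_injective v hv0) ?_ s56ecu_psi_finite_coker
  intro y
  rw [hker y]
  constructor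
  · rintro ⟨n, rfl⟩
    exact ⟨⟨fun _ => n⟩, rfl⟩
  · rintro ⟨a, rfl⟩
    exact ⟨a (), rfl⟩

/-- The unit sequence (U-a) in the additive-invariant form. -/
theorem s56ecu_fin_identity {A : Type} [AddCommGroup A] (m : s56ecu_AddInv Gal(K/F) A)
    (S : Finset (HeightOneSpectrum (𝓞 F))) :
    m.μ (Additive ↥(su_ET F K S))
      = m.μ (Additive (𝓞 K)ˣ) + m.μ (s56ecu_Perm Gal(K/F) ↥(su_primesAbove F K S)) :=
  m.add4 _ _ _ (s56ecu_incl S) (s56ecu_ord S) (s56ecu_incl_equivariant S)
    (s56ecu_ord_equivariant S) (s56ecu_incl_injective S) (s56ecu_ord_eq_zero_iff S)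
    (s56ecu_ord_finite_coker S)

/-- **[EC-UNIT]**: `μ(E_T) + μ(ℤ) = μ(ℤ[T]) + μ(ℤ[S_∞])` for every additive invariant `μ` of
`Gal(K/F)`-modules. -/
theorem s56ecu_main {A : Type} [AddCommGroup A] (m : s56ecu_AddInv Gal(K/F) A)
    (S : Finset (HeightOneSpectrum (𝓞 F))) :
    m.μ (Additive ↥(su_ET F K S)) + m.μ (s56ecu_Perm Gal(K/F) Unit)
      = m.μ (s56ecu_Perm Gal(K/F) ↥(su_primesAbove F K S))
        + m.μ (s56ecu_Perm Gal(K/F) (InfinitePlace K)) := by
  rw [s56ecu_fin_identity m S, s56ecu_inf_identity m]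
  abel

/-- **[EC-UNIT]** for a subgroup `B ≤ Gal(K/F)` (all actions restricted to `B`). -/
theorem s56ecu_main_subgroup {A : Type} [AddCommGroup A] (B : Subgroup Gal(K/F))
    (m : s56ecu_AddInv ↥B A) (S : Finset (HeightOneSpectrum (𝓞 F))) :
    m.μ (Additive ↥(su_ET F K S)) + m.μ (s56ecu_Perm Gal(K/F) Unit)
      = m.μ (s56ecu_Perm Gal(K/F) ↥(su_primesAbove F K S))
        + m.μ (s56ecu_Perm Gal(K/F) (InfinitePlace K)) :=
  s56ecu_main (m.restrict B) S

end Fermat.Agent.S56
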