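import Mathlib
import Fermat.Agent.S56.GW.EC.Unit.Main

/-!
# S56 / [GW-EC] / [EC-UNIT]: formal consequences of the additivity axiom (prefix `s56ecu_`)

For an additive invariant `m : s56ecu_AddInv G A`: `m.μ` vanishes on finite groups, is invariant
under equivariant isomorphisms (more generally under equivariant injections with finite cokernel),
and is additive on short exact sequences.
-/

set_option autoImplicit false
set_option linter.unusedSectionVars false

namespace Fermat.Agent.S56

variable {G : Type} [Group G] {A : Type} [AddCommGroup A] (m : s56ecu_AddInv G A)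

/-- The invariant of the zero module vanishes. -/
theorem s56ecu_AddInv.punit : m.μ PUnit = 0 := by
  have h := m.add4 PUnit PUnit PUnit (0 : PUnit →+ PUnit) (0 : PUnit →+ PUnit)
    (fun _ _ => rfl) (fun _ _ => rfl) (fun _ _ _ => Subsingleton.elim _ _)
    (fun y => ⟨fun _ => ⟨y, Subsingleton.elim _ _⟩, fun _ => rfl⟩) inferInstance
  have h2 : m.μ PUnit + 0 = m.μ PUnit + m.μ PUnit := by rw [add_zero]; exact h
  exact (add_left_cancel h2).symm

/-- The invariant vanishes on finite modules. -/
theorem s56ecu_AddInv.fin (M : Type) [AddCommGroup M] [DistribMulAction G M] [Finite M] :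
    m.μ M = 0 := by
  have h := m.add4 PUnit PUnit M (0 : PUnit →+ PUnit) (0 : PUnit →+ M)
    (fun _ _ => rfl) (fun σ _ => (smul_zero σ).symm) (fun _ _ _ => Subsingleton.elim _ _)
    (fun y => ⟨fun _ => ⟨y, Subsingleton.elim _ _⟩, fun _ => rfl⟩) inferInstance
  rw [m.punit, zero_add] at h
  exact h.symm

/-- Invariance under equivariant injections with finite cokernel. -/
theorem s56ecu_AddInv.of_finite_coker (M N : Type) [AddCommGroup M] [AddCommGroup N]
    [DistribMulAction G M] [DistribMulAction G N] [Module.Finite ℤ M] [Module.Finite ℤ N]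
    (f : M →+ N) (hf : ∀ (σ : G) (x : M), f (σ • x) = σ • f x) (hinj : Function.Injective f)
    (hfin : Finite (N ⧸ f.range)) : m.μ M = m.μ N := by
  have h := m.add4 PUnit M N (0 : PUnit →+ M) f (fun σ _ => (smul_zero σ).symm) hf
    (fun _ _ _ => Subsingleton.elim _ _)
    (fun y => ⟨fun hy => ⟨PUnit.unit, ((injective_iff_map_eq_zero f).mp hinj y hy).symm⟩,
      fun ⟨_, hx⟩ => by rw [← hx]; exact map_zero f⟩) hfin
  rw [m.punit, zero_add] at h
  exact h

/-- Invariance under equivariant isomorphisms. -/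
theorem s56ecu_AddInv.iso (M N : Type) [AddCommGroup M] [AddCommGroup N]
    [DistribMulAction G M] [DistribMulAction G N] [Module.Finite ℤ M] [Module.Finite ℤ N]
    (e : M ≃+ N) (he : ∀ (σ : G) (x : M), e (σ • x) = σ • e x) : m.μ M = m.μ N := by
  refine m.of_finite_coker M N e.toAddMonoidHom he e.injective ?_
  have hr : e.toAddMonoidHom.range = ⊤ := AddMonoidHom.range_eq_top.mpr e.surjective
  rw [hr]
  infer_instance

/-- Additivity on short exact sequences. -/
theorem s56ecu_AddInv.ses (M₁ M₂ M₃ : Type) [AddCommGroup M₁] [AddCommGroup M₂] [AddCommGroup M₃]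
    [DistribMulAction G M₁] [DistribMulAction G M₂] [DistribMulAction G M₃]
    [Module.Finite ℤ M₁] [Module.Finite ℤ M₂] [Module.Finite ℤ M₃]
    (ι : M₁ →+ M₂) (f : M₂ →+ M₃) (hι : ∀ (σ : G) (x : M₁), ι (σ • x) = σ • ι x)
    (hf : ∀ (σ : G) (x : M₂), f (σ • x) = σ • f x) (hinj : Function.Injective ι)
    (hex : ∀ y, f y = 0 ↔ ∃ x, ι x = y) (hsurj : Function.Surjective f) :
    m.μ M₂ = m.μ M₁ + m.μ M₃ := by
  refine m.add4 M₁ M₂ M₃ ι f hι hf hinj hex ?_
  have hr : f.range = ⊤ := AddMonoidHom.range_eq_top.mpr hsurj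
  rw [hr]
  infer_instance

end Fermat.Agent.S56
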