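import Mathlib
import Fermat.Agent.S55.G1.SUnitBridge
import Fermat.Agent.S55.Idele.SUnitSeam
import Fermat.Agent.S56.GW.EC.Unit.Inv

/-!
# S56 / [GW-EC] / [EC-UNIT]: the unit identity for `id_ES S K` (prefix `s56ecu_`)

`K` a number field, `S : Finset Nat.Primes`, `id_ES S K ≤ Kˣ` the `S`-units in the vocabulary of
`S55/Idele/Defs.lean`, with the action `σ • x` of `K ≃ₐ[ℚ] K`.  For every subgroup
`B ≤ (K ≃ₐ[ℚ] K)` and every additive invariant `m` of `B`-modules:

`m(E_S(K)) + m(ℤ) = m(ℤ[primes of K above S]) + m(ℤ[S_∞(K)])`.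
-/

set_option autoImplicit false
set_option linter.unusedSectionVars false

namespace Fermat.Agent.S56

open NumberField IsDedekindDomain Fermat.Agent.S55 Module

variable (S : Finset Nat.Primes) (K : Type) [Field K] [NumberField K]

/-- The action of `K ≃ₐ[ℚ] K` on the `S`-units `id_ES S K`, written additively. -/
noncomputable instance s56ecu_idESAction :
    DistribMulAction (K ≃ₐ[ℚ] K) (Additive ↥(id_ES S K)) where
  smul g x := Additive.ofMul (g • Additive.toMul x)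
  one_smul x := by
    change Additive.ofMul ((1 : K ≃ₐ[ℚ] K) • Additive.toMul x) = x
    rw [one_smul]; rfl
  mul_smul g h x := by
    change Additive.ofMul ((g * h) • Additive.toMul x) = _
    rw [mul_smul]; rfl
  smul_zero g := by
    change Additive.ofMul (g • Additive.toMul (0 : Additive ↥(id_ES S K))) = _
    rw [toMul_zero, smul_one]; rfl
  smul_add g x y := by
    change Additive.ofMul (g • Additive.toMul (x + y : Additive ↥(id_ES S K))) = _
    rw [toMul_add, smul_mul']; rfl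

theorem s56ecu_idES_smul_def (g : K ≃ₐ[ℚ] K) (x : Additive ↥(id_ES S K)) :
    g • x = Additive.ofMul (g • Additive.toMul x) := rfl

/-- The primes of `K` above the rational primes in `S`. -/
noncomputable abbrev s56ecu_TS : Finset (HeightOneSpectrum (𝓞 K)) :=
  su_primesAbove ℚ K (fq_sb_SF S ℚ)

theorem s56ecu_mem_TS (w : HeightOneSpectrum (𝓞 K)) :
    w ∈ s56ecu_TS S K ↔ ∃ q ∈ S, ((q : ℕ) : 𝓞 K) ∈ w.asIdeal := by
  rw [su_mem_primesAbove, fq_sb_under_mem_SF]

/-- The identification of the `T`-units with `id_ES S K`. -/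
noncomputable def s56ecu_idESEquiv :
    Additive ↥(su_ET ℚ K (fq_sb_SF S ℚ)) ≃+ Additive ↥(id_ES S K) :=
  MulEquiv.toAdditive (MulEquiv.subgroupCongr (fq_sb_ET_eq S K))

theorem s56ecu_idESEquiv_coe (x : Additive ↥(su_ET ℚ K (fq_sb_SF S ℚ))) :
    ((Additive.toMul (s56ecu_idESEquiv S K x) : ↥(id_ES S K)) : Kˣ)
      = ((Additive.toMul x : ↥(su_ET ℚ K (fq_sb_SF S ℚ))) : Kˣ) := rfl

theorem s56ecu_idESEquiv_equivariant (g : K ≃ₐ[ℚ] K)
    (x : Additive ↥(su_ET ℚ K (fq_sb_SF S ℚ))) :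
    s56ecu_idESEquiv S K (g • x) = g • s56ecu_idESEquiv S K x := by
  apply Additive.toMul.injective
  apply Subtype.ext
  apply Units.ext
  rfl

instance s56ecu_idES_finite : Module.Finite ℤ (Additive ↥(id_ES S K)) :=
  Module.Finite.equiv (s56ecu_idESEquiv S K).toIntLinearEquiv

/-- **[EC-UNIT]** in the `id_ES` vocabulary, for a subgroup `B ≤ (K ≃ₐ[ℚ] K)`. -/
theorem s56ecu_main_idES {A : Type} [AddCommGroup A] (B : Subgroup (K ≃ₐ[ℚ] K))
    (m : s56ecu_AddInv ↥B A) :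
    m.μ (Additive ↥(id_ES S K)) + m.μ (s56ecu_Perm (K ≃ₐ[ℚ] K) Unit)
      = m.μ (s56ecu_Perm (K ≃ₐ[ℚ] K) ↥(s56ecu_TS S K))
        + m.μ (s56ecu_Perm (K ≃ₐ[ℚ] K) (InfinitePlace K)) := by
  rw [← s56ecu_main_subgroup B m (fq_sb_SF S ℚ)]
  congr 1
  exact (m.iso _ _ (s56ecu_idESEquiv S K)
    (fun σ x => s56ecu_idESEquiv_equivariant S K σ.1 x)).symm

end Fermat.Agent.S56
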