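import Mathlib
import Fermat.Agent.S56.GW.EC.Mult.Mu

/-!
# S56 / [GW-EC] / [EC-UNIT]: `ℤ[C]`-modules from group actions (prefix `s56ecu_`)

For an abelian group `M` with an action of the commutative group `C`, `s56ecu_AsMod C M` is the
type synonym of `M` carrying the corresponding `ℤ[C]`-module structure.  Equivariant additive maps
are the `ℤ[C]`-linear maps, and the number of equivariant maps `X →+[C] M` is helper12's
`s56emu_h C (AsMod X) (AsMod M)`.
-/

set_option autoImplicit false
set_option linter.unusedSectionVars false

namespace Fermat.Agent.S56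

open MonoidAlgebra

set_option linter.unusedVariables false in
/-- `M` with its `ℤ[C]`-module structure (`C` is a phantom argument). -/
def s56ecu_AsMod (C M : Type) : Type := M

variable (C : Type) [CommGroup C]

namespace s56ecu_AsMod

variable (M N : Type) [AddCommGroup M] [DistribMulAction C M] [AddCommGroup N]
  [DistribMulAction C N]

instance instAddCommGroup : AddCommGroup (s56ecu_AsMod C M) := inferInstanceAs (AddCommGroup M)

/-- the identity, as an additive equivalence -/
def toMod : M ≃+ s56ecu_AsMod C M := AddEquiv.refl M

/-- the structure map `ℤ[C] → End M` -/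
noncomputable def structHom : MonoidAlgebra ℤ C →+* Module.End ℤ M :=
  (MonoidAlgebra.lift ℤ (Module.End ℤ M) C (DistribMulAction.toModuleEnd ℤ M)).toRingHom

noncomputable instance instModule : Module (MonoidAlgebra ℤ C) (s56ecu_AsMod C M) :=
  Module.compHom M (structHom C M)

variable {M}

theorem smul_def (r : MonoidAlgebra ℤ C) (m : M) :
    r • toMod C M m = toMod C M (structHom C M r m) := rfl

theorem of_smul (c : C) (m : M) :
    (of ℤ C c : MonoidAlgebra ℤ C) • toMod C M m = toMod C M (c • m) := by
  rw [smul_def]
  congr 1
  change (MonoidAlgebra.lift ℤ (Module.End ℤ M) C (DistribMulAction.toModuleEnd ℤ M))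
    (of ℤ C c) m = c • m
  rw [MonoidAlgebra.lift_of]
  rfl

theorem of_smul' (c : C) (m : s56ecu_AsMod C M) :
    (of ℤ C c : MonoidAlgebra ℤ C) • m = toMod C M (c • (toMod C M).symm m) :=
  of_smul C c ((toMod C M).symm m)

variable (M)

instance instFinite [Finite M] : Finite (s56ecu_AsMod C M) := inferInstanceAs (Finite M)

instance instModuleFinite [Module.Finite ℤ M] : Module.Finite ℤ (s56ecu_AsMod C M) :=
  inferInstanceAs (Module.Finite ℤ M)

variable {M N}

/-- An equivariant additive map as a `ℤ[C]`-linear map. -/
noncomputable def lin (f : M →+ N) (hf : ∀ (c : C) (x : M), f (c • x) = c • f x) :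
    s56ecu_AsMod C M →ₗ[MonoidAlgebra ℤ C] s56ecu_AsMod C N :=
  s56emu_mkLin (((toMod C N).toAddMonoidHom.comp f).comp (toMod C M).symm.toAddMonoidHom)
    (by
      intro c x
      rw [of_smul']
      change toMod C N (f (c • (toMod C M).symm x)) = _
      rw [hf, ← of_smul]
      rfl)

@[simp] theorem lin_apply (f : M →+ N) (hf : ∀ (c : C) (x : M), f (c • x) = c • f x) (m : M) :
    lin C f hf (toMod C M m) = toMod C N (f m) := rfl

theorem lin_injective (f : M →+ N) (hf : ∀ (c : C) (x : M), f (c • x) = c • f x)
    (h : Function.Injective f) : Function.Injective (lin C f hf) := h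

theorem lin_surjective (f : M →+ N) (hf : ∀ (c : C) (x : M), f (c • x) = c • f x)
    (h : Function.Surjective f) : Function.Surjective (lin C f hf) := h

/-- A `ℤ[C]`-linear map is equivariant. -/
theorem linear_equivariant (g : s56ecu_AsMod C M →ₗ[MonoidAlgebra ℤ C] s56ecu_AsMod C N)
    (c : C) (m : M) :
    (toMod C N).symm (g (toMod C M (c • m))) = c • (toMod C N).symm (g (toMod C M m)) := by
  rw [← of_smul, map_smul, of_smul']
  rfl

/-- Equivariant additive maps `X →+[C] M` are the `ℤ[C]`-linear maps. -/
noncomputable def homEquiv :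
    (M →+[C] N) ≃ (s56ecu_AsMod C M →ₗ[MonoidAlgebra ℤ C] s56ecu_AsMod C N) where
  toFun φ := lin C (φ : M →+ N) (fun c x => map_smul φ c x)
  invFun g :=
    { toFun := fun m => (toMod C N).symm (g (toMod C M m))
      map_smul' := fun c m => linear_equivariant C g c m
      map_zero' := by simp
      map_add' := fun x y => by simp }
  left_inv φ := by
    ext m
    rfl
  right_inv g := by
    ext m
    rfl

/-- The number of equivariant maps is helper12's `s56emu_h`. -/
theorem card_hom :
    Nat.card (M →+[C] N) = s56emu_h C (s56ecu_AsMod C M) (s56ecu_AsMod C N) :=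
  Nat.card_congr (homEquiv C)

end s56ecu_AsMod

end Fermat.Agent.S56
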