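import Mathlib
import Fermat.Agent.S56.GW.EC.Unit.AsMod
import Fermat.Agent.S56.GW.EC.Unit.Inv

/-!
# S56 / [GW-EC] / [EC-UNIT]: the additive invariant `μ_X` (prefix `s56ecu_`)

`C` a finite commutative group, `p ∤ #C`, `X` a finite `C`-module killed by `p`.  For a `C`-module
`M` (finitely generated abelian group) `s56ecu_mu C p X M = #Hom_C(X, M/p) / #Hom_C(X, M[p]) ∈ ℚ`
(helper12's `s56emu_mu` for the `ℤ[C]`-module `s56ecu_AsMod C M`).  It is multiplicative on
equivariant exact sequences `0 → M₁ → M₂ → M₃` with finite cokernel (`s56ecu_mu_add4`), hence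
gives an additive invariant `s56ecu_muInv` with values in `Additive ℚˣ`.

Evaluation by models: `s56ecu_a_eq_card`, `s56ecu_b_eq_card`, `s56ecu_b_eq_one`.
-/

set_option autoImplicit false
set_option linter.unusedSectionVars false

namespace Fermat.Agent.S56

open MonoidAlgebra

variable (C : Type) [CommGroup C] [Fintype C] (p : ℕ) [Fact p.Prime]
variable (X : Type) [AddCommGroup X] [DistribMulAction C X]

/-- `μ_X(M) = #Hom_C(X, M/p) / #Hom_C(X, M[p])`. -/
noncomputable def s56ecu_mu (M : Type) [AddCommGroup M] [DistribMulAction C M] : ℚ :=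
  s56emu_mu C p (s56ecu_AsMod C M) (s56ecu_AsMod C X)

theorem s56ecu_mu_pos [Finite X] (M : Type) [AddCommGroup M] [DistribMulAction C M]
    [Module.Finite ℤ M] : 0 < s56ecu_mu C p X M :=
  s56emu_mu_pos (C := C) (p := p) (s56ecu_AsMod C X) (s56ecu_AsMod C M)

variable {C p}

/-- Multiplicativity of `μ_X` on equivariant exact sequences `0 → M₁ → M₂ → M₃` with finite
cokernel. -/
theorem s56ecu_mu_add4 [Finite X] (hpC : ¬ p ∣ Fintype.card C)
    (M₁ M₂ M₃ : Type) [AddCommGroup M₁] [AddCommGroup M₂] [AddCommGroup M₃]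
    [DistribMulAction C M₁] [DistribMulAction C M₂] [DistribMulAction C M₃]
    [Module.Finite ℤ M₁] [Module.Finite ℤ M₂] [Module.Finite ℤ M₃]
    (ι : M₁ →+ M₂) (f : M₂ →+ M₃)
    (hι : ∀ (σ : C) (x : M₁), ι (σ • x) = σ • ι x) (hf : ∀ (σ : C) (x : M₂), f (σ • x) = σ • f x)
    (hinj : Function.Injective ι) (hex : ∀ y, f y = 0 ↔ ∃ x, ι x = y)
    (hfin : Finite (M₃ ⧸ f.range)) :
    s56ecu_mu C p X M₂ = s56ecu_mu C p X M₁ * s56ecu_mu C p X M₃ := by
  set ιL := s56ecu_AsMod.lin C ι hι with hιL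
  set fL := s56ecu_AsMod.lin C f hf with hfL
  set R : Submodule (MonoidAlgebra ℤ C) (s56ecu_AsMod C M₃) := LinearMap.range fL with hR
  have : Module.Finite ℤ ↥R :=
    Module.Finite.of_surjective (fL.rangeRestrict.restrictScalars ℤ)
      (LinearMap.surjective_rangeRestrict fL)
  -- first sequence
  have h1 : s56emu_mu C p (s56ecu_AsMod C M₂) (s56ecu_AsMod C X)
      = s56emu_mu C p (s56ecu_AsMod C M₁) (s56ecu_AsMod C X)
        * s56emu_mu C p ↥R (s56ecu_AsMod C X) := by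
    refine s56emu_mu_ses (s56ecu_AsMod C X) hpC ιL fL.rangeRestrict
      (s56ecu_AsMod.lin_injective C ι hι hinj) ?_ (LinearMap.surjective_rangeRestrict fL)
    intro y
    constructor
    · intro hy
      have hy' : f ((s56ecu_AsMod.toMod C M₂).symm y) = 0 := by
        have := congrArg Subtype.val hy
        exact this
      obtain ⟨x, hx⟩ := (hex _).mp hy'
      exact ⟨s56ecu_AsMod.toMod C M₁ x, hx⟩
    · rintro ⟨x, rfl⟩
      apply Subtype.ext
      change f (ι ((s56ecu_AsMod.toMod C M₁).symm x)) = 0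
      exact (hex _).mpr ⟨_, rfl⟩
  -- second sequence
  have : Finite (s56ecu_AsMod C M₃ ⧸ R) := by
    let g : M₃ ⧸ f.range →+ s56ecu_AsMod C M₃ ⧸ R :=
      QuotientAddGroup.lift f.range
        (R.mkQ.toAddMonoidHom.comp (s56ecu_AsMod.toMod C M₃).toAddMonoidHom)
        (by
          rintro x ⟨y, rfl⟩
          change R.mkQ (s56ecu_AsMod.toMod C M₃ (f y)) = 0
          rw [Submodule.mkQ_apply, Submodule.Quotient.mk_eq_zero]
          exact ⟨s56ecu_AsMod.toMod C M₂ y, rfl⟩)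
    refine Finite.of_surjective g ?_
    intro q
    obtain ⟨y, rfl⟩ := Submodule.mkQ_surjective R q
    exact ⟨QuotientAddGroup.mk ((s56ecu_AsMod.toMod C M₃).symm y), rfl⟩
  have : Module.Finite ℤ (s56ecu_AsMod C M₃ ⧸ R) := Module.Finite.of_finite
  have h2 : s56emu_mu C p (s56ecu_AsMod C M₃) (s56ecu_AsMod C X)
      = s56emu_mu C p ↥R (s56ecu_AsMod C X)
        * s56emu_mu C p (s56ecu_AsMod C M₃ ⧸ R) (s56ecu_AsMod C X) :=
    s56emu_mu_ses (s56ecu_AsMod C X) hpC R.subtype R.mkQ (Submodule.subtype_injective R)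
      (LinearMap.exact_subtype_mkQ R) (Submodule.mkQ_surjective R)
  have h3 : s56emu_mu C p (s56ecu_AsMod C M₃ ⧸ R) (s56ecu_AsMod C X) = 1 :=
    s56emu_mu_of_finite (s56ecu_AsMod C X) hpC _ (s56ecu_AsMod C M₃ ⧸ R) rfl
  rw [h3, mul_one] at h2
  unfold s56ecu_mu
  rw [h1, h2]

variable (C p)

/-- The additive invariant `μ_X`, with values in `Additive ℚˣ`. -/
noncomputable def s56ecu_muInv [Finite X] (hpC : ¬ p ∣ Fintype.card C) :
    s56ecu_AddInv C (Additive ℚˣ) where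
  μ M _ _ := if h : s56ecu_mu C p X M ≠ 0 then Additive.ofMul (Units.mk0 _ h) else 0
  add4 M₁ M₂ M₃ _ _ _ _ _ _ _ _ _ ι f hι hf hinj hex hfin := by
    have h1 := (s56ecu_mu_pos C p X M₁).ne'
    have h2 := (s56ecu_mu_pos C p X M₂).ne'
    have h3 := (s56ecu_mu_pos C p X M₃).ne'
    rw [dif_pos h1, dif_pos h2, dif_pos h3, ← ofMul_mul]
    congr 1
    apply Units.ext
    rw [Units.val_mul, Units.val_mk0, Units.val_mk0, Units.val_mk0]
    exact s56ecu_mu_add4 X hpC M₁ M₂ M₃ ι f hι hf hinj hex hfin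

variable {C p}

theorem s56ecu_muInv_apply [Finite X] (hpC : ¬ p ∣ Fintype.card C) (M : Type) [AddCommGroup M]
    [DistribMulAction C M] [Module.Finite ℤ M] :
    (s56ecu_muInv C p X hpC).μ M
      = Additive.ofMul (Units.mk0 (s56ecu_mu C p X M) (s56ecu_mu_pos C p X M).ne') :=
  dif_pos (s56ecu_mu_pos C p X M).ne'

/-- An identity `μ(M₁) + μ(M₂) = μ(M₃) + μ(M₄)` for the invariant `s56ecu_muInv` is the identity
`μ_X(M₁) μ_X(M₂) = μ_X(M₃) μ_X(M₄)` of rational numbers. -/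
theorem s56ecu_muInv_identity [Finite X] (hpC : ¬ p ∣ Fintype.card C)
    (M₁ M₂ M₃ M₄ : Type) [AddCommGroup M₁] [AddCommGroup M₂] [AddCommGroup M₃] [AddCommGroup M₄]
    [DistribMulAction C M₁] [DistribMulAction C M₂] [DistribMulAction C M₃]
    [DistribMulAction C M₄] [Module.Finite ℤ M₁] [Module.Finite ℤ M₂] [Module.Finite ℤ M₃]
    [Module.Finite ℤ M₄]
    (h : (s56ecu_muInv C p X hpC).μ M₁ + (s56ecu_muInv C p X hpC).μ M₂
      = (s56ecu_muInv C p X hpC).μ M₃ + (s56ecu_muInv C p X hpC).μ M₄) :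
    s56ecu_mu C p X M₁ * s56ecu_mu C p X M₂ = s56ecu_mu C p X M₃ * s56ecu_mu C p X M₄ := by
  rw [s56ecu_muInv_apply, s56ecu_muInv_apply, s56ecu_muInv_apply, s56ecu_muInv_apply,
    ← ofMul_mul, ← ofMul_mul] at h
  have h' := congrArg (fun u : ℚˣ => (u : ℚ)) (Additive.ofMul.injective h)
  simpa only [Units.val_mul, Units.val_mk0] using h'

/-! ### Evaluation by models -/

section eval

variable (M : Type) [AddCommGroup M] [DistribMulAction C M]

/-- `#Hom_C(X, M/p)` for any model `π : M → Q` of `M/p`. -/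
theorem s56ecu_a_eq_card (Q : Type) [AddCommGroup Q] [DistribMulAction C Q] (π : M →+ Q)
    (hπ : ∀ (c : C) (m : M), π (c • m) = c • π m) (hsurj : Function.Surjective π)
    (hker : ∀ m, π m = 0 ↔ ∃ m', m = p • m') :
    s56emu_a C p (s56ecu_AsMod C M) (s56ecu_AsMod C X) = Nat.card (X →+[C] Q) := by
  set πL := s56ecu_AsMod.lin C π hπ with hπL
  have hk : LinearMap.ker πL = LinearMap.range (s56emu_mulp C p (s56ecu_AsMod C M)) := by
    ext m
    rw [LinearMap.mem_ker, LinearMap.mem_range]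
    constructor
    · intro hm
      obtain ⟨m', hm'⟩ := (hker ((s56ecu_AsMod.toMod C M).symm m)).mp hm
      refine ⟨s56ecu_AsMod.toMod C M m', ?_⟩
      rw [s56emu_mulp_apply]
      exact hm'.symm
    · rintro ⟨m', rfl⟩
      rw [s56emu_mulp_apply]
      exact (hker _).mpr ⟨(s56ecu_AsMod.toMod C M).symm m', rfl⟩
  have e : s56emu_Q C p (s56ecu_AsMod C M) ≃ₗ[MonoidAlgebra ℤ C] s56ecu_AsMod C Q :=
    (Submodule.quotEquivOfEq _ _ hk.symm).trans
      (πL.quotKerEquivOfSurjective (s56ecu_AsMod.lin_surjective C π hπ hsurj))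
  unfold s56emu_a
  rw [s56emu_h_congr _ e, s56ecu_AsMod.card_hom]

/-- `#Hom_C(X, M[p])` for any model `ι : Kr → M` of `M[p]`. -/
theorem s56ecu_b_eq_card (Kr : Type) [AddCommGroup Kr] [DistribMulAction C Kr] (ι : Kr →+ M)
    (hι : ∀ (c : C) (k : Kr), ι (c • k) = c • ι k) (hinj : Function.Injective ι)
    (hrange : ∀ m : M, p • m = 0 ↔ ∃ k, ι k = m) :
    s56emu_b C p (s56ecu_AsMod C M) (s56ecu_AsMod C X) = Nat.card (X →+[C] Kr) := by
  set ιL := s56ecu_AsMod.lin C ι hι with hιL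
  have hr : LinearMap.range ιL = s56emu_K C p (s56ecu_AsMod C M) := by
    ext m
    rw [LinearMap.mem_range, LinearMap.mem_ker, s56emu_mulp_apply]
    constructor
    · rintro ⟨k, rfl⟩
      exact (hrange _).mpr ⟨(s56ecu_AsMod.toMod C Kr).symm k, rfl⟩
    · intro hm
      obtain ⟨k, hk⟩ := (hrange ((s56ecu_AsMod.toMod C M).symm m)).mp hm
      exact ⟨s56ecu_AsMod.toMod C Kr k, hk⟩
  have e : s56ecu_AsMod C Kr ≃ₗ[MonoidAlgebra ℤ C] ↥(s56emu_K C p (s56ecu_AsMod C M)) :=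
    (LinearEquiv.ofInjective ιL (s56ecu_AsMod.lin_injective C ι hι hinj)).trans
      (LinearEquiv.ofEq _ _ hr)
  unfold s56emu_b
  rw [← s56emu_h_congr _ e, s56ecu_AsMod.card_hom]

/-- `#Hom_C(X, M[p]) = 1` if `M` has no `p`-torsion. -/
theorem s56ecu_b_eq_one (htf : ∀ m : M, p • m = 0 → m = 0) :
    s56emu_b C p (s56ecu_AsMod C M) (s56ecu_AsMod C X) = 1 := by
  have : Subsingleton ↥(s56emu_K C p (s56ecu_AsMod C M)) := by
    refine ⟨fun a b => Subtype.ext ?_⟩
    have ha := a.2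
    have hb := b.2
    rw [LinearMap.mem_ker, s56emu_mulp_apply] at ha hb
    rw [htf _ ha, htf _ hb]
  unfold s56emu_b
  exact s56emu_h_of_subsingleton _

end eval

end Fermat.Agent.S56
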