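import Mathlib
import Fermat.Agent.S56.GW.EC.Unit.Mu
import Fermat.Agent.S56.GW.EC.Unit.IdES

/-!
# S56 / [GW-EC] / [EC-UNIT]: the equivariant unit theorem in counting form (prefix `s56ecu_`)

`K` a number field, `S : Finset Nat.Primes`, `C` a finite commutative group of order prime to `p`
acting on `K` through `φ : C →* (K ≃ₐ[ℚ] K)`, `X` a finite `C`-module killed by `p`.  For ANY
models `Q` of `E_S(K)/p`, `Kr` of `E_S(K)[p] = μ_p(K)`, `PT` of `F_p[T]` (`T` the primes of `K`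
above `S`), `PI` of `F_p[S_∞(K)]` and `P1` of `F_p` (trivial action):

`#Hom_C(X, Q) * #Hom_C(X, P1) = #Hom_C(X, Kr) * #Hom_C(X, PT) * #Hom_C(X, PI)`

(`s56ecu_count`), i.e. `[E_S/p] - [μ_p] = [F_p[S_f ∪ S_∞]] - [F_p]` in multiplicity form.
-/

set_option autoImplicit false
set_option linter.unusedSectionVars false
set_option linter.style.haveILetI false

namespace Fermat.Agent.S56

open NumberField IsDedekindDomain Fermat.Agent.S55 MonoidAlgebra

/-- Pull-back of an additive invariant along a group homomorphism. -/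
def s56ecu_AddInv.comap {G H : Type} [Group G] [Group H] {A : Type} [AddCommGroup A]
    (φ : H →* G) (m : s56ecu_AddInv H A) : s56ecu_AddInv G A where
  μ M _ _ := letI := DistribMulAction.compHom M φ; m.μ M
  add4 M₁ M₂ M₃ _ _ _ _ _ _ _ _ _ ι f hι hf hinj hex hfin := by
    letI := DistribMulAction.compHom M₁ φ
    letI := DistribMulAction.compHom M₂ φ
    letI := DistribMulAction.compHom M₃ φ
    exact m.add4 M₁ M₂ M₃ ι f (fun σ x => hι (φ σ) x) (fun σ x => hf (φ σ) x) hinj hex hfin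

/-- **[EC-UNIT]** in the `id_ES` vocabulary, for the full group `K ≃ₐ[ℚ] K`. -/
theorem s56ecu_main_idES' (S : Finset Nat.Primes) (K : Type) [Field K] [NumberField K]
    {A : Type} [AddCommGroup A] (m : s56ecu_AddInv (K ≃ₐ[ℚ] K) A) :
    m.μ (Additive ↥(id_ES S K)) + m.μ (s56ecu_Perm (K ≃ₐ[ℚ] K) Unit)
      = m.μ (s56ecu_Perm (K ≃ₐ[ℚ] K) ↥(s56ecu_TS S K))
        + m.μ (s56ecu_Perm (K ≃ₐ[ℚ] K) (InfinitePlace K)) := by
  rw [← s56ecu_main m (fq_sb_SF S ℚ)]
  congr 1
  exact (m.iso _ _ (s56ecu_idESEquiv S K)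
    (fun σ x => s56ecu_idESEquiv_equivariant S K σ x)).symm

section perm

variable {C : Type} [CommGroup C] [Fintype C] {p : ℕ} [Fact p.Prime]
variable (X : Type) [AddCommGroup X] [DistribMulAction C X]

theorem s56ecu_Perm.nsmul_apply {G Y : Type} (n : ℕ) (a : s56ecu_Perm G Y) (y : Y) :
    (n • a) y = n * a y := by
  rw [← natCast_zsmul, s56ecu_Perm.zsmul_apply]

/-- The reduction mod `p` of a permutation module. -/
def s56ecu_red (p : ℕ) (G Y : Type) : s56ecu_Perm G Y →+ (Y → ZMod p) where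
  toFun a y := ((a y : ℤ) : ZMod p)
  map_zero' := by
    funext y
    simp
  map_add' a b := by
    funext y
    simp

theorem s56ecu_red_apply (G Y : Type) (a : s56ecu_Perm G Y) (y : Y) :
    s56ecu_red p G Y a y = ((a y : ℤ) : ZMod p) := rfl

theorem s56ecu_red_surjective (G Y : Type) : Function.Surjective (s56ecu_red p G Y) := by
  intro b
  refine ⟨⟨fun y => ((b y).val : ℤ)⟩, ?_⟩
  funext y
  rw [s56ecu_red_apply]
  simp

theorem s56ecu_red_eq_zero_iff (G Y : Type) (a : s56ecu_Perm G Y) :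
    s56ecu_red p G Y a = 0 ↔ ∃ a' : s56ecu_Perm G Y, a = p • a' := by
  constructor
  · intro h
    have hdvd : ∀ y, (p : ℤ) ∣ a y := fun y => by
      have := congrFun h y
      rw [s56ecu_red_apply, Pi.zero_apply, ZMod.intCast_zmod_eq_zero_iff_dvd] at this
      exact this
    refine ⟨⟨fun y => a y / p⟩, ?_⟩
    ext y
    rw [s56ecu_Perm.nsmul_apply]
    exact (Int.mul_ediv_cancel' (hdvd y)).symm
  · rintro ⟨a', rfl⟩
    funext y
    rw [s56ecu_red_apply, s56ecu_Perm.nsmul_apply]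
    simp

/-- Evaluation of `μ_X` on a permutation module, for any model of its reduction mod `p`. -/
theorem s56ecu_perm_eval (G Y : Type) [DistribMulAction C (s56ecu_Perm G Y)] (ψ : C → Y → Y)
    (hact : ∀ (c : C) (a : s56ecu_Perm G Y) (y : Y), (c • a) y = a (ψ c y))
    (P : Type) [AddCommGroup P] [DistribMulAction C P] (e : P ≃+ (Y → ZMod p))
    (he : ∀ (c : C) (b : P) (y : Y), e (c • b) y = e b (ψ c y)) :
    s56emu_a C p (s56ecu_AsMod C (s56ecu_Perm G Y)) (s56ecu_AsMod C X) = Nat.card (X →+[C] P) ∧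
      s56emu_b C p (s56ecu_AsMod C (s56ecu_Perm G Y)) (s56ecu_AsMod C X) = 1 := by
  have hp : (p : ℤ) ≠ 0 := by exact_mod_cast (Fact.out : p.Prime).ne_zero
  constructor
  · refine s56ecu_a_eq_card X (s56ecu_Perm G Y) P
      (e.symm.toAddMonoidHom.comp (s56ecu_red p G Y)) ?_ ?_ ?_
    · intro c a
      apply e.injective
      funext y
      change e (e.symm (s56ecu_red p G Y (c • a))) y = e (c • e.symm (s56ecu_red p G Y a)) y
      rw [he, AddEquiv.apply_symm_apply, AddEquiv.apply_symm_apply, s56ecu_red_apply,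
        s56ecu_red_apply, hact]
    · exact e.symm.surjective.comp (s56ecu_red_surjective G Y)
    · intro a
      change e.symm (s56ecu_red p G Y a) = 0 ↔ _
      rw [AddEquiv.map_eq_zero_iff, s56ecu_red_eq_zero_iff]
  · refine s56ecu_b_eq_one X (s56ecu_Perm G Y) ?_
    intro a ha
    ext y
    have := congrArg (fun b : s56ecu_Perm G Y => b y) ha
    simp only [s56ecu_Perm.nsmul_apply, s56ecu_Perm.zero_apply] at this
    rcases mul_eq_zero.mp this with h | h
    · exact absurd h hp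
    · exact h

end perm

section final

variable (S : Finset Nat.Primes) (K : Type) [Field K] [NumberField K]
variable {C : Type} [CommGroup C] [Fintype C] {p : ℕ} [Fact p.Prime]

/-- **[EC-UNIT], counting form.**  `C` a finite commutative group of order prime to `p` acting on
the number field `K` through `φ`, `X` a finite `C`-module killed by `p`.  For any models `Q` of
`E_S(K)/p`, `Kr` of `E_S(K)[p]`, `PT` of `F_p[T]`, `PI` of `F_p[S_∞(K)]`, `P1` of `F_p`:
`#Hom_C(X,Q) · #Hom_C(X,P1) = #Hom_C(X,Kr) · #Hom_C(X,PT) · #Hom_C(X,PI)`. -/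
theorem s56ecu_count (hpC : ¬ p ∣ Fintype.card C) (φ : C →* (K ≃ₐ[ℚ] K))
    (X : Type) [AddCommGroup X] [DistribMulAction C X] [Finite X]
    -- a model of `E_S(K) / p`
    (Q : Type) [AddCommGroup Q] [DistribMulAction C Q] (π : Additive ↥(id_ES S K) →+ Q)
    (hπ : ∀ (c : C) (e : Additive ↥(id_ES S K)), π (φ c • e) = c • π e)
    (hπs : Function.Surjective π) (hπk : ∀ e, π e = 0 ↔ ∃ e', e = p • e')
    -- a model of `E_S(K)[p] = μ_p(K)`
    (Kr : Type) [AddCommGroup Kr] [DistribMulAction C Kr] (ι : Kr →+ Additive ↥(id_ES S K))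
    (hι : ∀ (c : C) (k : Kr), ι (c • k) = φ c • ι k)
    (hιi : Function.Injective ι) (hιr : ∀ e : Additive ↥(id_ES S K), p • e = 0 ↔ ∃ k, ι k = e)
    -- a model of `F_p[T]`, `T` the primes of `K` above `S`
    (PT : Type) [AddCommGroup PT] [DistribMulAction C PT]
    (eT : PT ≃+ (↥(s56ecu_TS S K) → ZMod p))
    (heT : ∀ (c : C) (b : PT) (t : ↥(s56ecu_TS S K)), eT (c • b) t = eT b ((φ c)⁻¹ • t))
    -- a model of `F_p[S_∞(K)]`
    (PI : Type) [AddCommGroup PI] [DistribMulAction C PI] (eI : PI ≃+ (InfinitePlace K → ZMod p))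
    (heI : ∀ (c : C) (b : PI) (w : InfinitePlace K), eI (c • b) w = eI b ((φ c)⁻¹ • w))
    -- a model of `F_p` with trivial action
    (P1 : Type) [AddCommGroup P1] [DistribMulAction C P1] (e1 : P1 ≃+ ZMod p)
    (he1 : ∀ (c : C) (b : P1), e1 (c • b) = e1 b) :
    Nat.card (X →+[C] Q) * Nat.card (X →+[C] P1)
      = Nat.card (X →+[C] Kr) * Nat.card (X →+[C] PT) * Nat.card (X →+[C] PI) := by
  -- the `C`-actions through `φ`
  letI iE : DistribMulAction C (Additive ↥(id_ES S K)) := DistribMulAction.compHom _ φ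
  letI iT : DistribMulAction C (s56ecu_Perm (K ≃ₐ[ℚ] K) ↥(s56ecu_TS S K)) :=
    DistribMulAction.compHom _ φ
  letI iI : DistribMulAction C (s56ecu_Perm (K ≃ₐ[ℚ] K) (InfinitePlace K)) :=
    DistribMulAction.compHom _ φ
  letI i1 : DistribMulAction C (s56ecu_Perm (K ≃ₐ[ℚ] K) Unit) := DistribMulAction.compHom _ φ
  -- the identity for `μ_X`
  have key := s56ecu_main_idES' S K ((s56ecu_muInv C p X hpC).comap φ)
  have key' : s56ecu_mu C p X (Additive ↥(id_ES S K))
        * s56ecu_mu C p X (s56ecu_Perm (K ≃ₐ[ℚ] K) Unit)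
      = s56ecu_mu C p X (s56ecu_Perm (K ≃ₐ[ℚ] K) ↥(s56ecu_TS S K))
        * s56ecu_mu C p X (s56ecu_Perm (K ≃ₐ[ℚ] K) (InfinitePlace K)) :=
    s56ecu_muInv_identity X hpC _ _ _ _ key
  -- evaluation
  have hE_a : s56emu_a C p (s56ecu_AsMod C (Additive ↥(id_ES S K))) (s56ecu_AsMod C X)
      = Nat.card (X →+[C] Q) := s56ecu_a_eq_card X _ Q π hπ hπs hπk
  have hE_b : s56emu_b C p (s56ecu_AsMod C (Additive ↥(id_ES S K))) (s56ecu_AsMod C X)
      = Nat.card (X →+[C] Kr) := s56ecu_b_eq_card X _ Kr ι hι hιi hιr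
  obtain ⟨hT_a, hT_b⟩ := s56ecu_perm_eval (C := C) (p := p) X (K ≃ₐ[ℚ] K) ↥(s56ecu_TS S K)
    (fun c t => (φ c)⁻¹ • t) (fun c a t => rfl) PT eT heT
  obtain ⟨hI_a, hI_b⟩ := s56ecu_perm_eval (C := C) (p := p) X (K ≃ₐ[ℚ] K) (InfinitePlace K)
    (fun c w => (φ c)⁻¹ • w) (fun c a w => rfl) PI eI heI
  obtain ⟨h1_a, h1_b⟩ := s56ecu_perm_eval (C := C) (p := p) X (K ≃ₐ[ℚ] K) Unit
    (fun _ u => u) (fun c a u => rfl) P1
    (e1.trans (AddEquiv.funUnique Unit (ZMod p)).symm) (fun c b u => by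
      change e1 (c • b) = e1 b
      exact he1 c b)
  -- positivity of the denominators
  have hbE : 0 < s56emu_b C p (s56ecu_AsMod C (Additive ↥(id_ES S K))) (s56ecu_AsMod C X) :=
    s56emu_b_pos (C := C) (p := p) (s56ecu_AsMod C X) _
  unfold s56ecu_mu s56emu_mu at key'
  rw [hE_a, hT_a, hI_a, h1_a, hT_b, hI_b, h1_b] at key'
  rw [hE_b] at key' hbE
  have hb0 : (Nat.card (X →+[C] Kr) : ℚ) ≠ 0 := by exact_mod_cast hbE.ne'
  have : (Nat.card (X →+[C] Q) : ℚ) * Nat.card (X →+[C] P1)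
      = Nat.card (X →+[C] Kr) * Nat.card (X →+[C] PT) * Nat.card (X →+[C] PI) := by
    field_simp at key'
    linear_combination key'
  exact_mod_cast this

end final

end Fermat.Agent.S56
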