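import Mathlib
import Fermat.Agent.S56.GW.EC.Mult.UnitX
import Fermat.Agent.S56.GW.EC.Unit.Count

/-!
# S56 / [GW-EC] / [EC-UNIT]: the unit identity in counting form along a homomorphism
(prefix `s56ecu_`)

`K` a number field, `S : Finset Nat.Primes`, `B` ANY finite group of order prime to `p` acting on
`K` through `φ : B →* (K ≃ₐ[ℚ] K)` (e.g. `B ≤ Δ` and `φ = levIso ∘ B.subtype`), `X` a finite
`B`-module killed by `p`, `E₀` any `B`-module with a `φ`-equivariant isomorphism to the `S`-units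
`id_ES S K`.  Then, in the [EC-BASE] vocabulary `h_X(A) = Nat.card (X →+[B] A)`:

`h_X(E₀/p) · h_X(𝔽_p) = h_X(E₀) · h_X(𝔽_p[T]) · h_X(𝔽_p[S_∞])`

(`s56ecu_count_hom`), `T` the primes of `K` above `S`.  This is helper12's
`s56emg_unit_card_iso` with the subgroup `B ≤ Gal(K/F)` replaced by a homomorphism.
-/

set_option autoImplicit false
set_option linter.unusedSectionVars false
set_option linter.style.haveILetI false

namespace Fermat.Agent.S56

open NumberField IsDedekindDomain Fermat.Agent.S55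

/-- **[EC-UNIT] + [EC-MULT] along a homomorphism** `φ : B →* (K ≃ₐ[ℚ] K)`. -/
theorem s56ecu_count_hom (p : ℕ) [Fact p.Prime] (S : Finset Nat.Primes)
    (K : Type) [Field K] [NumberField K]
    (B : Type) [Group B] [Finite B] (hpB : ¬ p ∣ Nat.card B) (φ : B →* (K ≃ₐ[ℚ] K))
    (X : Type) [AddCommGroup X] [DistribMulAction B X] [Finite X] (hX : ∀ x : X, p • x = 0)
    {E₀ : Type*} [AddCommGroup E₀] [DistribMulAction B E₀]
    (e : E₀ ≃+ Additive ↥(id_ES S K)) (he : ∀ (b : B) (x : E₀), e (b • x) = φ b • e x)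
    {QE : Type*} [AddCommGroup QE] [DistribMulAction B QE]
    (q : E₀ →+[B] QE) (hq : Function.Surjective q)
    (hker : ∀ t, q t = 0 ↔ ∃ s, t = p • s)
    {P₁ : Type*} [AddCommGroup P₁] [DistribMulAction B P₁] (e₁ : P₁ ≃+ ZMod p)
    (h₁ : ∀ (b : B) (a : P₁), b • a = a)
    {PT : Type*} [AddCommGroup PT] [DistribMulAction B PT]
    (eT : PT ≃+ (↥(s56ecu_TS S K) → ZMod p))
    (hT : ∀ (b : B) (a : PT) (y : ↥(s56ecu_TS S K)), eT (b • a) y = eT a ((φ b)⁻¹ • y))
    {PI : Type*} [AddCommGroup PI] [DistribMulAction B PI]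
    (eI : PI ≃+ (InfinitePlace K → ZMod p))
    (hI : ∀ (b : B) (a : PI) (w : InfinitePlace K), eI (b • a) w = eI a ((φ b)⁻¹ • w)) :
    Nat.card (X →+[B] QE) * Nat.card (X →+[B] P₁) =
      Nat.card (X →+[B] E₀) * (Nat.card (X →+[B] PT) * Nat.card (X →+[B] PI)) := by
  -- the `B`-module structures through `φ`
  letI iE : DistribMulAction B (Additive ↥(id_ES S K)) := DistribMulAction.compHom _ φ
  letI i1 : DistribMulAction B (s56ecu_Perm (K ≃ₐ[ℚ] K) Unit) := DistribMulAction.compHom _ φ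
  letI iT : DistribMulAction B (s56ecu_Perm (K ≃ₐ[ℚ] K) ↥(s56ecu_TS S K)) :=
    DistribMulAction.compHom _ φ
  letI iI : DistribMulAction B (s56ecu_Perm (K ≃ₐ[ℚ] K) (InfinitePlace K)) :=
    DistribMulAction.compHom _ φ
  letI aT : MulAction B ↥(s56ecu_TS S K) := MulAction.compHom _ φ
  letI aI : MulAction B (InfinitePlace K) := MulAction.compHom _ φ
  letI a1 : MulAction B Unit := MulAction.compHom _ φ
  have key := s56ecu_main_idES' S K ((s56emg_addInv p B X hpB).comap φ)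
  have key2 : (s56emg_addInv p B X hpB).μ (Additive ↥(id_ES S K))
      + (s56emg_addInv p B X hpB).μ (s56ecu_Perm (K ≃ₐ[ℚ] K) Unit)
      = (s56emg_addInv p B X hpB).μ (s56ecu_Perm (K ≃ₐ[ℚ] K) ↥(s56ecu_TS S K))
        + (s56emg_addInv p B X hpB).μ (s56ecu_Perm (K ≃ₐ[ℚ] K) (InfinitePlace K)) := key
  have key' := congrArg (fun a => ((Additive.toMul a : ℚˣ) : ℚ)) key2
  simp only [toMul_add, Units.val_mul] at key'
  rw [s56emg_addInv_val, s56emg_addInv_val, s56emg_addInv_val, s56emg_addInv_val] at key'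
  -- the unit term
  have he' : ∀ (b : B) (n : Additive ↥(id_ES S K)), e.symm (b • n) = b • e.symm n := by
    intro b n
    apply e.injective
    rw [he, e.apply_symm_apply, e.apply_symm_apply]
    rfl
  let π : Additive ↥(id_ES S K) →+[B] QE :=
    { toFun := fun t => q (e.symm t)
      map_smul' := fun b t => by
        show q (e.symm (b • t)) = b • q (e.symm t)
        rw [he', map_smul]
      map_zero' := by rw [map_zero, map_zero]
      map_add' := fun s t => by rw [map_add, map_add] }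
  have hπ : Function.Surjective π := by
    intro y
    obtain ⟨x, rfl⟩ := hq y
    exact ⟨e x, by show q (e.symm (e x)) = q x; rw [e.symm_apply_apply]⟩
  have hkerπ : ∀ t, π t = 0 ↔ ∃ s, t = p • s := by
    intro t
    show q (e.symm t) = 0 ↔ _
    rw [hker]
    constructor
    · rintro ⟨s, hs⟩
      refine ⟨e s, ?_⟩
      rw [← map_nsmul, ← hs, e.apply_symm_apply]
    · rintro ⟨s, rfl⟩
      exact ⟨e.symm s, by rw [map_nsmul]⟩
  have hE := s56emg_muB_eval' p B X hX (Additive ↥(id_ES S K)) π hπ hkerπ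
  have hcong : Nat.card (X →+[B] E₀) = Nat.card (X →+[B] Additive ↥(id_ES S K)) :=
    s56emg_card_hom_congr B X e (fun b x => he b x)
  have hKpos := s56emg_card_hom_pos p B X hX (Additive ↥(id_ES S K))
  have h1 : s56emg_muB p B X (s56ecu_Perm (K ≃ₐ[ℚ] K) Unit) = (Nat.card (X →+[B] P₁) : ℚ) := by
    refine s56emg_muB_perm p B X (s56ecu_Perm (K ≃ₐ[ℚ] K) Unit)
      (s56ecu_Perm.addEquiv (G := (K ≃ₐ[ℚ] K)) (X := Unit)) (fun b m y => ?_)
      (e₁.trans (AddEquiv.funUnique Unit (ZMod p)).symm) (fun b a y => ?_)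
    · rfl
    · rw [h₁]
  have hT' : s56emg_muB p B X (s56ecu_Perm (K ≃ₐ[ℚ] K) ↥(s56ecu_TS S K)) =
      (Nat.card (X →+[B] PT) : ℚ) := by
    refine s56emg_muB_perm p B X _ (s56ecu_Perm.addEquiv (G := (K ≃ₐ[ℚ] K))
      (X := ↥(s56ecu_TS S K))) (fun b m y => ?_) eT (fun b a y => ?_)
    · show m ((φ b)⁻¹ • y) = m (φ b⁻¹ • y)
      rw [map_inv]
    · rw [hT]
      show eT a ((φ b)⁻¹ • y) = eT a (φ b⁻¹ • y)
      rw [map_inv]
  have hI' : s56emg_muB p B X (s56ecu_Perm (K ≃ₐ[ℚ] K) (InfinitePlace K)) =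
      (Nat.card (X →+[B] PI) : ℚ) := by
    refine s56emg_muB_perm p B X _ (s56ecu_Perm.addEquiv (G := (K ≃ₐ[ℚ] K))
      (X := InfinitePlace K)) (fun b m y => ?_) eI (fun b a y => ?_)
    · show m ((φ b)⁻¹ • y) = m (φ b⁻¹ • y)
      rw [map_inv]
    · rw [hI]
      show eI a ((φ b)⁻¹ • y) = eI a (φ b⁻¹ • y)
      rw [map_inv]
  rw [hE, h1, hT', hI'] at key'
  rw [hcong]
  have hK0 : (Nat.card (X →+[B] Additive ↥(id_ES S K)) : ℚ) ≠ 0 := by positivity
  have : (Nat.card (X →+[B] QE) : ℚ) * Nat.card (X →+[B] P₁) =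
      Nat.card (X →+[B] Additive ↥(id_ES S K)) *
        (Nat.card (X →+[B] PT) * Nat.card (X →+[B] PI)) := by
    field_simp at key'
    linear_combination key'
  exact_mod_cast this

end Fermat.Agent.S56
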