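import Mathlib
import Fermat.Agent.S55.Dual.ModulesLevel
import Fermat.Agent.S55.Idele.SUnitSeam
import Fermat.Agent.S56.GW.EC.Unit.IdES

/-!
# S56 / [GW-EC] / [EC-UNIT]: the level bridge (prefix `s56ecu_`)

`L ⊂ ℚ̄` a finite Galois extension of `ℚ` unramified outside `S`, `π : G_ℚ →* Δ` onto with
`ker π = Fix L`.  The `G_ℚ`-invariant functions `φ : Δ → E_S` (`g • φ ((π g)⁻¹ δ) = φ δ`), i.e.
the invariants of the coinduced module `Fun(Δ, E_S)`, are the `S`-units `id_ES S L` of `L`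
(`φ ↦ φ 1`), and right translation by `δ₀ = π g₀` corresponds to the Galois action of `g₀|_L`.
-/

set_option autoImplicit false
set_option linter.unusedSectionVars false

namespace Fermat.Agent.S56

open NumberField IsDedekindDomain Fermat.Agent.S55

local notation "Qbar" => AlgebraicClosure ℚ
local notation "GQ" => (AlgebraicClosure ℚ ≃ₐ[ℚ] AlgebraicClosure ℚ)

variable (S : Finset Nat.Primes) (L : IntermediateField ℚ Qbar) [NumberField L] [Normal ℚ L]
  (hL : L.IsUnramifiedOutside S)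

include hL in
theorem s56ecu_eval_mem (e : Additive ↥(id_ES S L)) :
    (Additive.toMul (ie_eval S L e) : Qbarˣ) ∈ dm_ESsub S := by
  have h := (ie_eval_range S L (Additive.toMul (ie_eval S L e))).1 ⟨e, rfl⟩
  exact ⟨⟨L, hL, h.1⟩, h.2⟩

/-- The inclusion `E_S(L) → E_S`. -/
noncomputable def s56ecu_incl' : Additive ↥(id_ES S L) →+ dm_ES S where
  toFun e := dm_ES.of S ⟨Additive.toMul (ie_eval S L e), s56ecu_eval_mem S L hL e⟩
  map_zero' := dm_ES.coe_injective rfl
  map_add' _ _ := dm_ES.coe_injective rfl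

theorem s56ecu_incl'_coe (e : Additive ↥(id_ES S L)) :
    dm_ES.coe S (s56ecu_incl' S L hL e)
      = ((((Additive.toMul e : ↥(id_ES S L)) : Lˣ) : L) : Qbar) := rfl

theorem s56ecu_incl'_injective : Function.Injective (s56ecu_incl' S L hL) := by
  intro x y h
  apply ie_eval_injective S L
  exact congrArg (dm_ES.val S) h

/-- Equivariance: `incl (g|_L • e) = g • incl e`. -/
theorem s56ecu_incl'_smul (g : GQ) (e : Additive ↥(id_ES S L)) :
    s56ecu_incl' S L hL ((AlgEquiv.restrictNormalHom L g : L ≃ₐ[ℚ] L) • e)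
      = g • s56ecu_incl' S L hL e := by
  apply dm_ES.coe_injective
  rw [dm_ES.coe_smul, s56ecu_incl'_coe, s56ecu_incl'_coe]
  exact AlgEquiv.restrictNormal_commutes g L _

/-- The image of `incl` is the set of `Fix L`-invariants. -/
theorem s56ecu_incl'_range (x : dm_ES S) (hx : ∀ σ ∈ L.fixingSubgroup, σ • x = x) :
    ∃ e, s56ecu_incl' S L hL e = x := by
  have hxL : dm_ES.coe S x ∈ L := dm_ql_mem_of_fixed L fun σ hσ => by
    rw [← dm_ES.coe_smul, hx σ hσ]
  obtain ⟨e, he⟩ := (ie_eval_range S L (Additive.toMul (dm_ES.val S x))).2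
    ⟨hxL, (dm_ES.coe_mem x).2⟩
  refine ⟨e, dm_ES.coe_injective ?_⟩
  have := congrArg (fun z : Additive Qbarˣ => ((z.toMul : Qbarˣ) : Qbar)) he
  exact this

theorem s56ecu_incl'_fixed (e : Additive ↥(id_ES S L)) (σ : GQ) (hσ : σ ∈ L.fixingSubgroup) :
    σ • s56ecu_incl' S L hL e = s56ecu_incl' S L hL e := by
  rw [← s56ecu_incl'_smul]
  have h1 : (AlgEquiv.restrictNormalHom L σ : L ≃ₐ[ℚ] L) = 1 := by
    rw [← MonoidHom.mem_ker, tl_ker_restrictNormalHom]
    exact hσ
  rw [h1, one_smul]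

variable {Δ : Type} [Group Δ] (π : GQ →* Δ)

/-- The `G_ℚ`-invariant functions `Δ → E_S` (the invariants of `Fun(Δ, E_S)` for the action
`(g • φ) δ = g • φ ((π g)⁻¹ δ)`). -/
def s56ecu_invFun : AddSubgroup (Δ → dm_ES S) where
  carrier := {φ | ∀ (g : GQ) (δ : Δ), g • φ ((π g)⁻¹ * δ) = φ δ}
  zero_mem' := fun g δ => smul_zero g
  add_mem' := by
    intro φ ψ hφ hψ g δ
    rw [Pi.add_apply, Pi.add_apply, smul_add, hφ g δ, hψ g δ]
  neg_mem' := by
    intro φ hφ g δ
    rw [Pi.neg_apply, Pi.neg_apply, smul_neg, hφ g δ]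

theorem s56ecu_mem_invFun (φ : Δ → dm_ES S) :
    φ ∈ s56ecu_invFun S π ↔ ∀ (g : GQ) (δ : Δ), g • φ ((π g)⁻¹ * δ) = φ δ := Iff.rfl

variable (hsurj : Function.Surjective π) (hker : ∀ g : GQ, π g = 1 ↔ g ∈ L.fixingSubgroup)

include hker in
/-- `g • incl e` depends only on `π g`. -/
theorem s56ecu_smul_incl'_congr (e : Additive ↥(id_ES S L)) (g h : GQ) (hgh : π g = π h) :
    g • s56ecu_incl' S L hL e = h • s56ecu_incl' S L hL e := by
  have h1 : h⁻¹ * g ∈ L.fixingSubgroup := by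
    rw [← hker, map_mul, map_inv, hgh, inv_mul_cancel]
  have h2 := s56ecu_incl'_fixed S L hL e _ h1
  rw [mul_smul] at h2
  calc g • s56ecu_incl' S L hL e = h • (h⁻¹ • g • s56ecu_incl' S L hL e) :=
        (smul_inv_smul h _).symm
    _ = h • s56ecu_incl' S L hL e := by rw [h2]

/-- The function `δ ↦ g_δ • incl e` attached to an `S`-unit `e` of `L`. -/
noncomputable def s56ecu_levFun (e : Additive ↥(id_ES S L)) : Δ → dm_ES S :=
  fun δ => Function.surjInv hsurj δ • s56ecu_incl' S L hL e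

include hker in
theorem s56ecu_levFun_apply (e : Additive ↥(id_ES S L)) (g : GQ) :
    s56ecu_levFun S L hL π hsurj e (π g) = g • s56ecu_incl' S L hL e :=
  s56ecu_smul_incl'_congr S L hL π hker e _ _ (Function.surjInv_eq hsurj (π g))

include hker in
theorem s56ecu_levFun_mem (e : Additive ↥(id_ES S L)) :
    s56ecu_levFun S L hL π hsurj e ∈ s56ecu_invFun S π := by
  intro g δ
  obtain ⟨h, rfl⟩ := hsurj δ
  rw [← map_inv, ← map_mul, s56ecu_levFun_apply S L hL π hsurj hker,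
    s56ecu_levFun_apply S L hL π hsurj hker, ← mul_smul, mul_inv_cancel_left]

/-- The level bridge `E_S(L) ≃ Fun(Δ, E_S)^{G_ℚ}`. -/
noncomputable def s56ecu_levHom :
    Additive ↥(id_ES S L) →+ ↥(s56ecu_invFun S π) where
  toFun e := ⟨s56ecu_levFun S L hL π hsurj e, s56ecu_levFun_mem S L hL π hsurj hker e⟩
  map_zero' := by
    apply Subtype.ext
    funext δ
    change Function.surjInv hsurj δ • s56ecu_incl' S L hL 0 = 0
    rw [map_zero, smul_zero]
  map_add' a b := by
    apply Subtype.ext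
    funext δ
    change Function.surjInv hsurj δ • s56ecu_incl' S L hL (a + b) = _
    rw [map_add, smul_add]
    rfl

theorem s56ecu_levHom_apply (e : Additive ↥(id_ES S L)) (g : GQ) :
    (s56ecu_levHom S L hL π hsurj hker e : Δ → dm_ES S) (π g) = g • s56ecu_incl' S L hL e :=
  s56ecu_levFun_apply S L hL π hsurj hker e g

theorem s56ecu_levHom_one (e : Additive ↥(id_ES S L)) :
    (s56ecu_levHom S L hL π hsurj hker e : Δ → dm_ES S) 1 = s56ecu_incl' S L hL e := by
  have := s56ecu_levHom_apply S L hL π hsurj hker e 1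
  rwa [map_one, one_smul] at this

theorem s56ecu_levHom_bijective :
    Function.Bijective (s56ecu_levHom S L hL π hsurj hker) := by
  constructor
  · intro a b hab
    apply s56ecu_incl'_injective S L hL
    rw [← s56ecu_levHom_one S L hL π hsurj hker a, ← s56ecu_levHom_one S L hL π hsurj hker b, hab]
  · intro φ
    have hφ := φ.2
    rw [s56ecu_mem_invFun] at hφ
    -- `φ 1` is fixed by `Fix L`
    have hfix : ∀ σ ∈ L.fixingSubgroup, σ • (φ : Δ → dm_ES S) 1 = (φ : Δ → dm_ES S) 1 := by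
      intro σ hσ
      have h1 := hφ σ 1
      rw [(hker σ).mpr hσ, inv_one, one_mul] at h1
      exact h1
    obtain ⟨e, he⟩ := s56ecu_incl'_range S L hL _ hfix
    refine ⟨e, Subtype.ext (funext fun δ => ?_)⟩
    obtain ⟨g, rfl⟩ := hsurj δ
    rw [s56ecu_levHom_apply, he]
    have h2 := hφ g (π g)
    rwa [inv_mul_cancel] at h2

/-- **The level bridge**: `Fun(Δ, E_S)^{G_ℚ} ≃+ E_S(L)`, `φ ↦ φ 1`. -/
noncomputable def s56ecu_levEquiv : ↥(s56ecu_invFun S π) ≃+ Additive ↥(id_ES S L) :=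
  (AddEquiv.ofBijective (s56ecu_levHom S L hL π hsurj hker)
    (s56ecu_levHom_bijective S L hL π hsurj hker)).symm

theorem s56ecu_incl'_levEquiv (φ : ↥(s56ecu_invFun S π)) :
    s56ecu_incl' S L hL (s56ecu_levEquiv S L hL π hsurj hker φ) = (φ : Δ → dm_ES S) 1 := by
  have h := (AddEquiv.ofBijective (s56ecu_levHom S L hL π hsurj hker)
    (s56ecu_levHom_bijective S L hL π hsurj hker)).apply_symm_apply φ
  rw [← s56ecu_levHom_one S L hL π hsurj hker]
  exact congrArg (fun ψ : ↥(s56ecu_invFun S π) => (ψ : Δ → dm_ES S) 1) h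

/-- Right translation by `π g₀` on invariant functions is the Galois action of `g₀|_L` on
`E_S(L)`. -/
theorem s56ecu_levEquiv_translate (φ ψ : ↥(s56ecu_invFun S π)) (g₀ : GQ)
    (hψ : ∀ δ, (ψ : Δ → dm_ES S) δ = (φ : Δ → dm_ES S) (δ * π g₀)) :
    s56ecu_levEquiv S L hL π hsurj hker ψ
      = (AlgEquiv.restrictNormalHom L g₀ : L ≃ₐ[ℚ] L) • s56ecu_levEquiv S L hL π hsurj hker φ := by
  apply s56ecu_incl'_injective S L hL
  rw [s56ecu_incl'_smul, s56ecu_incl'_levEquiv, s56ecu_incl'_levEquiv, hψ, one_mul]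
  have hφ := φ.2
  rw [s56ecu_mem_invFun] at hφ
  have h2 := hφ g₀ (π g₀)
  rw [inv_mul_cancel] at h2
  exact h2.symm

end Fermat.Agent.S56
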