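import Mathlib
import Fermat.Agent.S56.GW.EC.Unit.Level
import Fermat.Agent.S56.GW.EC.Unit.LevField
import Fermat.Agent.S56.GW.EC.Unit.CountG

/-!
# S56 / [GW-EC] / [EC-UNIT]: the level bridge for `K = s56ecu_levK π`, with the `Δ`-action
(prefix `s56ecu_`)

`π : G_ℚ →* Δ` onto, smooth, unramified outside `S` (the first three fields of `s56eg_IsLev`),
`K := s56ecu_levK π`.

* `s56ecu_invFunAct S π : DistribMulAction Δ ↥(s56ecu_invFun S π)`, `(δ₀ • φ) δ = φ (δ * δ₀)`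
  (the right translation action of [EC-BASE]'s `s56eb_TF`, restricted to the invariants);
* `s56ecu_levE : ↥(s56ecu_invFun S π) ≃+ Additive ↥(id_ES S ↥K)` with
  `s56ecu_levE_smul : levE (δ₀ • φ) = levIso δ₀ • levE φ`;
* `s56ecu_levET : ↥(s56ecu_invFun S π) ≃+ Additive ↥(su_ET ℚ ↥K (fq_sb_SF S ℚ))`, same;
* `s56ecu_count_lev` : the (UNIT) line of [EC-BASE] for a `B`-module `E₀` equivariantly isomorphic
  to the invariant functions (e.g. `lvH0 (s56eb_TF π (dm_ES S))`), `B ≤ Δ` of order prime to `p`.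
-/

set_option autoImplicit false
set_option linter.unusedSectionVars false
set_option linter.style.haveILetI false

namespace Fermat.Agent.S56

open NumberField IsDedekindDomain Fermat.Agent.S55

local notation "Qbar" => AlgebraicClosure ℚ
local notation "GQ" => (AlgebraicClosure ℚ ≃ₐ[ℚ] AlgebraicClosure ℚ)

variable (S : Finset Nat.Primes) {Δ : Type} [Group Δ] (π : GQ →* Δ)

/-- Right translation on the invariant functions: `(δ₀ • φ) δ = φ (δ * δ₀)`. -/
@[reducible] def s56ecu_invFunAct : DistribMulAction Δ ↥(s56ecu_invFun S π) where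
  smul δ₀ φ := ⟨fun δ => (φ : Δ → dm_ES S) (δ * δ₀), by
    rw [s56ecu_mem_invFun]
    intro g δ
    have h := (s56ecu_mem_invFun S π _).1 φ.2 g (δ * δ₀)
    rw [← mul_assoc] at h
    exact h⟩
  one_smul φ := Subtype.ext (funext fun δ => by
    show (φ : Δ → dm_ES S) (δ * 1) = (φ : Δ → dm_ES S) δ
    rw [mul_one])
  mul_smul a b φ := Subtype.ext (funext fun δ => by
    show (φ : Δ → dm_ES S) (δ * (a * b)) = (φ : Δ → dm_ES S) (δ * a * b)
    rw [mul_assoc])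
  smul_zero _ := rfl
  smul_add _ _ _ := rfl

attribute [local instance] s56ecu_invFunAct

theorem s56ecu_invFun_smul_apply (δ₀ : Δ) (φ : ↥(s56ecu_invFun S π)) (δ : Δ) :
    ((δ₀ • φ : ↥(s56ecu_invFun S π)) : Δ → dm_ES S) δ = (φ : Δ → dm_ES S) (δ * δ₀) := rfl

variable (hsm : ∃ F : IntermediateField ℚ Qbar, FiniteDimensional ℚ F ∧
  ∀ s ∈ F.fixingSubgroup, π s = 1) (hsurj : Function.Surjective π)
  (hunr : ∀ q : Nat.Primes, q ∉ S → ∀ A : ValuationSubring Qbar,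
    A.LiesOverPrime (q : ℕ) → ∀ g ∈ A.inertiaSubgroupIn ℚ, π g = 1)
  [NumberField ↥(s56ecu_levK π)] [Normal ℚ ↥(s56ecu_levK π)]

/-- **The level bridge for `K = s56ecu_levK π`**: `Fun(Δ, E_S)^{G_ℚ} ≃+ E_S(K)`, `φ ↦ φ 1`. -/
noncomputable def s56ecu_levE :
    ↥(s56ecu_invFun S π) ≃+ Additive ↥(id_ES S ↥(s56ecu_levK π)) :=
  s56ecu_levEquiv S (s56ecu_levK π) (s56ecu_levK_unr π hsm S hunr) π hsurj
    (fun g => (s56ecu_mem_levK_fixingSubgroup π hsm g).symm)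

/-- `incl (levE φ) = φ 1`. -/
theorem s56ecu_incl'_levE (φ : ↥(s56ecu_invFun S π)) :
    s56ecu_incl' S (s56ecu_levK π) (s56ecu_levK_unr π hsm S hunr)
      (s56ecu_levE S π hsm hsurj hunr φ) = (φ : Δ → dm_ES S) 1 :=
  s56ecu_incl'_levEquiv S (s56ecu_levK π) (s56ecu_levK_unr π hsm S hunr) π hsurj _ φ

/-- **Equivariance**: right translation by `δ₀` is the Galois action of `levIso δ₀ ∈ Gal(K/ℚ)`. -/
theorem s56ecu_levE_smul (δ₀ : Δ) (φ : ↥(s56ecu_invFun S π)) :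
    s56ecu_levE S π hsm hsurj hunr (δ₀ • φ)
      = s56ecu_levIso π hsm hsurj δ₀ • s56ecu_levE S π hsm hsurj hunr φ := by
  obtain ⟨g₀, rfl⟩ := hsurj δ₀
  rw [s56ecu_levIso_apply]
  exact s56ecu_levEquiv_translate S (s56ecu_levK π) (s56ecu_levK_unr π hsm S hunr) π hsurj _
    φ (π g₀ • φ) g₀ (fun δ => rfl)

/-- The level bridge with values in the `T`-units `su_ET ℚ K T`, `T` the primes of `K` above `S`
(the `e` of `s56emg_unit_card_iso`). -/
noncomputable def s56ecu_levET :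
    ↥(s56ecu_invFun S π) ≃+ Additive ↥(su_ET ℚ ↥(s56ecu_levK π) (fq_sb_SF S ℚ)) :=
  (s56ecu_levE S π hsm hsurj hunr).trans (s56ecu_idESEquiv S ↥(s56ecu_levK π)).symm

theorem s56ecu_levET_smul (δ₀ : Δ) (φ : ↥(s56ecu_invFun S π)) :
    s56ecu_levET S π hsm hsurj hunr (δ₀ • φ)
      = s56ecu_levIso π hsm hsurj δ₀ • s56ecu_levET S π hsm hsurj hunr φ := by
  apply (s56ecu_idESEquiv S ↥(s56ecu_levK π)).injective
  rw [s56ecu_idESEquiv_equivariant]
  show (s56ecu_idESEquiv S ↥(s56ecu_levK π)) ((s56ecu_idESEquiv S ↥(s56ecu_levK π)).symm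
      (s56ecu_levE S π hsm hsurj hunr (δ₀ • φ)))
    = s56ecu_levIso π hsm hsurj δ₀ • (s56ecu_idESEquiv S ↥(s56ecu_levK π))
      ((s56ecu_idESEquiv S ↥(s56ecu_levK π)).symm (s56ecu_levE S π hsm hsurj hunr φ))
  rw [AddEquiv.apply_symm_apply, AddEquiv.apply_symm_apply, s56ecu_levE_smul]

include hunr in
/-- **The (UNIT) line of [EC-BASE]** at the level `K = s56ecu_levK π`: `B ≤ Δ` of order prime to
`p`, `X` a finite `B`-module killed by `p`, `E₀` a `B`-module with an equivariant isomorphism to the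
invariant functions `Fun(Δ, E_S)^{G_ℚ}` (right translation), `QE` a model of `E₀/p`.  Then
`h_X(E₀/p) · h_X(𝔽_p) = h_X(E₀) · h_X(𝔽_p[T]) · h_X(𝔽_p[S_∞(K)])`; `B` acts on the primes `T` of `K`
above `S` and on the infinite places through `levIso : Δ ≃* Gal(K/ℚ)`. -/
theorem s56ecu_count_lev (p : ℕ) [Fact p.Prime] [Finite Δ] (B : Subgroup Δ)
    (hpB : ¬ p ∣ Nat.card B)
    (X : Type) [AddCommGroup X] [DistribMulAction B X] [Finite X] (hX : ∀ x : X, p • x = 0)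
    {E₀ : Type*} [AddCommGroup E₀] [DistribMulAction B E₀]
    (e : E₀ ≃+ ↥(s56ecu_invFun S π)) (he : ∀ (b : B) (x : E₀), e (b • x) = (b : Δ) • e x)
    {QE : Type*} [AddCommGroup QE] [DistribMulAction B QE]
    (q : E₀ →+[B] QE) (hq : Function.Surjective q)
    (hker : ∀ t, q t = 0 ↔ ∃ s, t = p • s)
    {P₁ : Type*} [AddCommGroup P₁] [DistribMulAction B P₁] (e₁ : P₁ ≃+ ZMod p)
    (h₁ : ∀ (b : B) (a : P₁), b • a = a)
    {PT : Type*} [AddCommGroup PT] [DistribMulAction B PT]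
    (eT : PT ≃+ (↥(s56ecu_TS S ↥(s56ecu_levK π)) → ZMod p))
    (hT : ∀ (b : B) (a : PT) (y : ↥(s56ecu_TS S ↥(s56ecu_levK π))),
      eT (b • a) y = eT a ((s56ecu_levIso π hsm hsurj (b : Δ))⁻¹ • y))
    {PI : Type*} [AddCommGroup PI] [DistribMulAction B PI]
    (eI : PI ≃+ (InfinitePlace ↥(s56ecu_levK π) → ZMod p))
    (hI : ∀ (b : B) (a : PI) (w : InfinitePlace ↥(s56ecu_levK π)),
      eI (b • a) w = eI a ((s56ecu_levIso π hsm hsurj (b : Δ))⁻¹ • w)) :
    Nat.card (X →+[B] QE) * Nat.card (X →+[B] P₁) =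
      Nat.card (X →+[B] E₀) * (Nat.card (X →+[B] PT) * Nat.card (X →+[B] PI)) :=
  s56ecu_count_hom p S ↥(s56ecu_levK π) ↥B hpB
    ((s56ecu_levIso π hsm hsurj).toMonoidHom.comp B.subtype) X hX
    (e.trans (s56ecu_levE S π hsm hsurj hunr))
    (fun b x => by
      show s56ecu_levE S π hsm hsurj hunr (e (b • x)) = _
      rw [he, s56ecu_levE_smul]
      rfl)
    q hq hker e₁ h₁ eT hT eI hI

end Fermat.Agent.S56
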