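import Mathlib

/-!
# S56 / [GW-EC] / [EC-UNIT]: coset spaces and orbits along a homomorphism (prefix `s56ecu_`)

`ι : Δ →* Γ`, `X` a `Γ`-set, `x₀ i ∈ X` base points (`i : I`), `H i ≤ Δ` with
`δ ∈ H i ↔ ι δ • x₀ i = x₀ i`.  If the `ι Δ`-orbits of the `x₀ i` are pairwise disjoint and cover
`X`, then `(Σ i, Δ ⧸ H i) ≃ X`, `⟨i, δ⟩ ↦ ι δ • x₀ i`, and left translation by `δ₀` corresponds to
the action of `ι δ₀` (`s56ecu_sigmaCosetEquiv`, `_mk`, `_smul`, `_symm_smul`).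
-/

set_option autoImplicit false
set_option linter.unusedSectionVars false

namespace Fermat.Agent.S56

variable {Δ Γ X : Type} [Group Δ] [Group Γ] [MulAction Γ X] (ι : Δ →* Γ)

/-- The orbit map `Δ ⧸ H → X`, `δ ↦ ι δ • x₀`, for `H` fixing `x₀`. -/
def s56ecu_cosetMap (H : Subgroup Δ) (x₀ : X) (hH : ∀ δ ∈ H, ι δ • x₀ = x₀) : Δ ⧸ H → X :=
  Quotient.lift (fun δ : Δ => ι δ • x₀) (by
    intro a b hab
    have h1 : a⁻¹ * b ∈ H := QuotientGroup.leftRel_apply.mp hab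
    have h2 := hH _ h1
    rw [map_mul, map_inv, mul_smul, inv_smul_eq_iff] at h2
    exact h2.symm)

theorem s56ecu_cosetMap_mk (H : Subgroup Δ) (x₀ : X) (hH : ∀ δ ∈ H, ι δ • x₀ = x₀) (δ : Δ) :
    s56ecu_cosetMap ι H x₀ hH (QuotientGroup.mk δ) = ι δ • x₀ := rfl

theorem s56ecu_cosetMap_smul (H : Subgroup Δ) (x₀ : X) (hH : ∀ δ ∈ H, ι δ • x₀ = x₀) (δ₀ : Δ)
    (y : Δ ⧸ H) :
    s56ecu_cosetMap ι H x₀ hH (δ₀ • y) = ι δ₀ • s56ecu_cosetMap ι H x₀ hH y := by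
  induction y using QuotientGroup.induction_on with
  | H δ =>
    change s56ecu_cosetMap ι H x₀ hH (QuotientGroup.mk (δ₀ * δ)) = _
    rw [s56ecu_cosetMap_mk, s56ecu_cosetMap_mk, map_mul, mul_smul]

variable {I : Type} (H : I → Subgroup Δ) (x₀ : I → X)
  (hH : ∀ i δ, δ ∈ H i ↔ ι δ • x₀ i = x₀ i)
  (hdisj : ∀ i j δ, ι δ • x₀ i = x₀ j → i = j)
  (htr : ∀ x : X, ∃ i δ, ι δ • x₀ i = x)

/-- `(Σ i, Δ ⧸ H i) → X`, `⟨i, δ⟩ ↦ ι δ • x₀ i`. -/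
def s56ecu_sigmaCosetMap (y : Σ i, Δ ⧸ H i) : X :=
  s56ecu_cosetMap ι (H y.1) (x₀ y.1) (fun δ hδ => (hH y.1 δ).1 hδ) y.2

theorem s56ecu_sigmaCosetMap_mk (i : I) (δ : Δ) :
    s56ecu_sigmaCosetMap ι H x₀ hH ⟨i, QuotientGroup.mk δ⟩ = ι δ • x₀ i := rfl

include hdisj htr in
theorem s56ecu_sigmaCosetMap_bijective :
    Function.Bijective (s56ecu_sigmaCosetMap ι H x₀ hH) := by
  constructor
  · rintro ⟨i, y⟩ ⟨j, z⟩ h
    induction y using QuotientGroup.induction_on with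
    | H a =>
    induction z using QuotientGroup.induction_on with
    | H b =>
    rw [s56ecu_sigmaCosetMap_mk, s56ecu_sigmaCosetMap_mk] at h
    have h1 : ι (b⁻¹ * a) • x₀ i = x₀ j := by
      rw [map_mul, map_inv, mul_smul, inv_smul_eq_iff]
      exact h
    have hij := hdisj i j _ h1
    subst hij
    have h2 : b⁻¹ * a ∈ H i := (hH i _).2 h1
    have h3 : (QuotientGroup.mk b : Δ ⧸ H i) = QuotientGroup.mk a := QuotientGroup.eq.2 h2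
    rw [h3]
  · intro x
    obtain ⟨i, δ, h⟩ := htr x
    exact ⟨⟨i, QuotientGroup.mk δ⟩, h⟩

/-- **The orbit decomposition**: `(Σ i, Δ ⧸ H i) ≃ X`. -/
noncomputable def s56ecu_sigmaCosetEquiv : (Σ i, Δ ⧸ H i) ≃ X :=
  Equiv.ofBijective (s56ecu_sigmaCosetMap ι H x₀ hH)
    (s56ecu_sigmaCosetMap_bijective ι H x₀ hH hdisj htr)

theorem s56ecu_sigmaCosetEquiv_mk (i : I) (δ : Δ) :
    s56ecu_sigmaCosetEquiv ι H x₀ hH hdisj htr ⟨i, QuotientGroup.mk δ⟩ = ι δ • x₀ i := rfl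

theorem s56ecu_sigmaCosetEquiv_smul (δ₀ : Δ) (y : Σ i, Δ ⧸ H i) :
    s56ecu_sigmaCosetEquiv ι H x₀ hH hdisj htr (δ₀ • y)
      = ι δ₀ • s56ecu_sigmaCosetEquiv ι H x₀ hH hdisj htr y := by
  obtain ⟨i, y⟩ := y
  exact s56ecu_cosetMap_smul ι (H i) (x₀ i) (fun δ hδ => (hH i δ).1 hδ) δ₀ y

theorem s56ecu_sigmaCosetEquiv_symm_smul (δ₀ : Δ) (x : X) :
    (s56ecu_sigmaCosetEquiv ι H x₀ hH hdisj htr).symm (ι δ₀ • x)
      = δ₀ • (s56ecu_sigmaCosetEquiv ι H x₀ hH hdisj htr).symm x := by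
  rw [Equiv.symm_apply_eq, s56ecu_sigmaCosetEquiv_smul, Equiv.apply_symm_apply]

/-- The restriction of the action to a subgroup `B ≤ Δ`. -/
theorem s56ecu_sigmaCosetEquiv_symm_smul_subgroup (B : Subgroup Δ) (b : B) (x : X) :
    (s56ecu_sigmaCosetEquiv ι H x₀ hH hdisj htr).symm (ι (b : Δ) • x)
      = b • (s56ecu_sigmaCosetEquiv ι H x₀ hH hdisj htr).symm x :=
  s56ecu_sigmaCosetEquiv_symm_smul ι H x₀ hH hdisj htr (b : Δ) x

section single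

variable (H₁ : Subgroup Δ) (x₁ : X) (hH₁ : ∀ δ, δ ∈ H₁ ↔ ι δ • x₁ = x₁)
  (htr₁ : ∀ x : X, ∃ δ, ι δ • x₁ = x)

include htr₁ in
theorem s56ecu_cosetMap_bijective :
    Function.Bijective (s56ecu_cosetMap ι H₁ x₁ (fun δ hδ => (hH₁ δ).1 hδ)) := by
  constructor
  · intro y z h
    induction y using QuotientGroup.induction_on with
    | H a =>
    induction z using QuotientGroup.induction_on with
    | H b =>
    rw [s56ecu_cosetMap_mk, s56ecu_cosetMap_mk] at h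
    have h1 : ι (b⁻¹ * a) • x₁ = x₁ := by
      rw [map_mul, map_inv, mul_smul, inv_smul_eq_iff]
      exact h
    have h2 : b⁻¹ * a ∈ H₁ := (hH₁ _).2 h1
    exact (QuotientGroup.eq.2 h2).symm
  · intro x
    obtain ⟨δ, h⟩ := htr₁ x
    exact ⟨QuotientGroup.mk δ, h⟩

/-- The single-orbit case: `Δ ⧸ H₁ ≃ X`. -/
noncomputable def s56ecu_cosetEquiv : Δ ⧸ H₁ ≃ X :=
  Equiv.ofBijective _ (s56ecu_cosetMap_bijective ι H₁ x₁ hH₁ htr₁)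

theorem s56ecu_cosetEquiv_mk (δ : Δ) :
    s56ecu_cosetEquiv ι H₁ x₁ hH₁ htr₁ (QuotientGroup.mk δ) = ι δ • x₁ := rfl

theorem s56ecu_cosetEquiv_smul (δ₀ : Δ) (y : Δ ⧸ H₁) :
    s56ecu_cosetEquiv ι H₁ x₁ hH₁ htr₁ (δ₀ • y) = ι δ₀ • s56ecu_cosetEquiv ι H₁ x₁ hH₁ htr₁ y :=
  s56ecu_cosetMap_smul ι H₁ x₁ (fun δ hδ => (hH₁ δ).1 hδ) δ₀ y

theorem s56ecu_cosetEquiv_symm_smul (δ₀ : Δ) (x : X) :
    (s56ecu_cosetEquiv ι H₁ x₁ hH₁ htr₁).symm (ι δ₀ • x)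
      = δ₀ • (s56ecu_cosetEquiv ι H₁ x₁ hH₁ htr₁).symm x := by
  rw [Equiv.symm_apply_eq, s56ecu_cosetEquiv_smul, Equiv.apply_symm_apply]

end single

end Fermat.Agent.S56
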