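import Mathlib
import Fermat.Agent.S56.GW.EC.Unit.Inv

/-!
# S56 / [GW-EC] / [EC-UNIT]: permutation modules of isomorphic `G`-sets (prefix `s56ecu_`)

* `s56ecu_Perm.congr`: a bijection of `G`-sets induces an isomorphism of permutation modules,
  equivariant if the bijection is;
* `s56ecu_Perm.phantom`: changing the phantom group argument;
* `s56ecu_infEquiv`: for `K/ℚ` Galois and `c ∈ Gal(K/ℚ)` the complex conjugation attached to an
  embedding `φ : K →+* ℂ`, the `Gal(K/ℚ)`-set of infinite places of `K` is `Gal(K/ℚ) ⧸ ⟨c⟩`.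
-/

set_option autoImplicit false
set_option linter.unusedSectionVars false

namespace Fermat.Agent.S56

open NumberField

namespace s56ecu_Perm

variable {G G' X Y : Type}

/-- Transport of a permutation module along a bijection. -/
def congr (e : X ≃ Y) : s56ecu_Perm G X ≃+ s56ecu_Perm G Y where
  toFun a := ⟨fun y => a (e.symm y)⟩
  invFun b := ⟨fun x => b (e x)⟩
  left_inv a := by
    ext x
    change a (e.symm (e x)) = a x
    rw [Equiv.symm_apply_apply]
  right_inv b := by
    ext y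
    change b (e (e.symm y)) = b y
    rw [Equiv.apply_symm_apply]
  map_add' _ _ := rfl

@[simp] theorem congr_apply (e : X ≃ Y) (a : s56ecu_Perm G X) (y : Y) :
    congr e a y = a (e.symm y) := rfl

theorem congr_smul [Group G] [MulAction G X] [MulAction G Y] (e : X ≃ Y)
    (he : ∀ (g : G) (x : X), e (g • x) = g • e x) (g : G) (a : s56ecu_Perm G X) :
    congr e (g • a) = g • congr e a := by
  ext y
  rw [congr_apply, smul_apply, smul_apply, congr_apply]
  congr 1
  rw [Equiv.eq_symm_apply, he, Equiv.apply_symm_apply]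

/-- Changing the phantom group. -/
def phantom (G G' X : Type) : s56ecu_Perm G X ≃+ s56ecu_Perm G' X where
  toFun a := ⟨a.toFun⟩
  invFun b := ⟨b.toFun⟩
  left_inv _ := rfl
  right_inv _ := rfl
  map_add' _ _ := rfl

@[simp] theorem phantom_apply (a : s56ecu_Perm G X) (x : X) : phantom G G' X a x = a x := rfl

end s56ecu_Perm

/-- The invariant of a permutation module depends only on the `G`-set up to isomorphism. -/
theorem s56ecu_AddInv.perm_congr {G : Type} [Group G] {A : Type} [AddCommGroup A]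
    (m : s56ecu_AddInv G A) {X Y : Type} [Finite X] [Finite Y] [MulAction G X] [MulAction G Y]
    (e : X ≃ Y) (he : ∀ (g : G) (x : X), e (g • x) = g • e x) :
    m.μ (s56ecu_Perm G X) = m.μ (s56ecu_Perm G Y) :=
  m.iso _ _ (s56ecu_Perm.congr e) (s56ecu_Perm.congr_smul e he)

/-- The same for a subgroup `B ≤ G` acting on `ℤ[X]`, `ℤ[Y]` (`X`, `Y` being `G`-sets and the
bijection only `B`-equivariant). -/
theorem s56ecu_AddInv.perm_congr_subgroup {G : Type} [Group G] {A : Type} [AddCommGroup A]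
    (B : Subgroup G) (m : s56ecu_AddInv ↥B A) {X Y : Type} [Finite X] [Finite Y]
    [MulAction G X] [MulAction G Y] (e : X ≃ Y)
    (he : ∀ (g : G), g ∈ B → ∀ x : X, e (g • x) = g • e x) :
    m.μ (s56ecu_Perm G X) = m.μ (s56ecu_Perm G Y) := by
  refine m.iso _ _ (s56ecu_Perm.congr e) ?_
  intro σ a
  ext y
  change a ((σ : G)⁻¹ • e.symm y) = a (e.symm ((σ : G)⁻¹ • y))
  congr 1
  rw [Equiv.eq_symm_apply, he _ (inv_mem σ.2), Equiv.apply_symm_apply]

/-- A transitive `G`-set is `G ⧸ stabilizer`. -/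
noncomputable def s56ecu_transEquiv {G X : Type} [Group G] [MulAction G X]
    (x₀ : X) (htr : ∀ x : X, ∃ g : G, g • x₀ = x) : G ⧸ MulAction.stabilizer G x₀ ≃ X :=
  Equiv.ofBijective (MulAction.ofQuotientStabilizer G x₀)
    ⟨MulAction.injective_ofQuotientStabilizer G x₀, fun x => by
      obtain ⟨g, hg⟩ := htr x
      exact ⟨QuotientGroup.mk g, hg⟩⟩

theorem s56ecu_transEquiv_smul {G X : Type} [Group G] [MulAction G X]
    (x₀ : X) (htr : ∀ x : X, ∃ g : G, g • x₀ = x) (g : G) (q : G ⧸ MulAction.stabilizer G x₀) :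
    s56ecu_transEquiv x₀ htr (g • q) = g • s56ecu_transEquiv x₀ htr q :=
  MulAction.ofQuotientStabilizer_smul G x₀ g q

section Inf

variable {K : Type} [Field K] [NumberField K] [IsGalois ℚ K]

/-- The Galois group is transitive on the infinite places. -/
theorem s56ecu_inf_transitive (w₀ w : InfinitePlace K) : ∃ g : Gal(K/ℚ), g • w₀ = w := by
  have h : w ∈ MulAction.orbit Gal(K/ℚ) w₀ :=
    InfinitePlace.mem_orbit_iff.mpr (Subsingleton.elim _ _)
  exact h

/-- The stabilizer of the place attached to `φ` is generated by the conjugation `c`. -/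
theorem s56ecu_inf_stabilizer (φ : K →+* ℂ) (c : Gal(K/ℚ))
    (hc : ComplexEmbedding.IsConj φ c) :
    MulAction.stabilizer Gal(K/ℚ) (InfinitePlace.mk φ) = Subgroup.zpowers c := by
  have hS := hc.coe_stabilizer_mk (k := ℚ)
  have hmem : ∀ σ : Gal(K/ℚ), σ ∈ MulAction.stabilizer Gal(K/ℚ) (InfinitePlace.mk φ) ↔
      σ = 1 ∨ σ = c := by
    intro σ
    rw [← SetLike.mem_coe, hS, Set.mem_insert_iff, Set.mem_singleton_iff]
  apply le_antisymm
  · intro σ hσ
    rcases (hmem σ).mp hσ with rfl | rfl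
    · exact one_mem _
    · exact Subgroup.mem_zpowers _
  · rw [Subgroup.zpowers_le]
    exact (hmem c).mpr (Or.inr rfl)

/-- For `K/ℚ` Galois, `φ : K →+* ℂ` and `c` the complex conjugation attached to `φ`:
`Gal(K/ℚ) ⧸ ⟨c⟩ ≃ S_∞(K)`, `g ↦ g • w_φ`. -/
noncomputable def s56ecu_infEquiv (φ : K →+* ℂ) (c : Gal(K/ℚ))
    (hc : ComplexEmbedding.IsConj φ c) : Gal(K/ℚ) ⧸ Subgroup.zpowers c ≃ InfinitePlace K :=
  (Subgroup.quotientEquivOfEq (s56ecu_inf_stabilizer φ c hc).symm).trans
    (s56ecu_transEquiv (InfinitePlace.mk φ) (s56ecu_inf_transitive _))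

theorem s56ecu_infEquiv_mk (φ : K →+* ℂ) (c : Gal(K/ℚ))
    (hc : ComplexEmbedding.IsConj φ c) (g : Gal(K/ℚ)) :
    s56ecu_infEquiv φ c hc (QuotientGroup.mk g) = g • InfinitePlace.mk φ := rfl

theorem s56ecu_infEquiv_smul (φ : K →+* ℂ) (c : Gal(K/ℚ))
    (hc : ComplexEmbedding.IsConj φ c) (g : Gal(K/ℚ)) (q : Gal(K/ℚ) ⧸ Subgroup.zpowers c) :
    s56ecu_infEquiv φ c hc (g • q) = g • s56ecu_infEquiv φ c hc q := by
  induction q using QuotientGroup.induction_on with
  | H h =>
    change s56ecu_infEquiv φ c hc (QuotientGroup.mk (g * h)) = _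
    rw [s56ecu_infEquiv_mk, s56ecu_infEquiv_mk, mul_smul]

end Inf

end Fermat.Agent.S56
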