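import Mathlib
import Fermat.Agent.S55.Places.Local
import Fermat.Agent.S55.LevelFamily
import Fermat.Agent.S56.GW.EC.Unit.IdES
import Fermat.Agent.S56.GW.EC.Unit.Sets
import Fermat.Agent.S56.GW.EC.Unit.Coset

/-!
# S56 / [GW-EC] / [EC-UNIT]: the places of a level field as coset spaces (prefix `s56ecu_`)

`L ⊂ ℚ̄` a finite Galois extension of `ℚ`, `π : G_ℚ →* Δ`, `ι : Δ ≃* Gal(L/ℚ)` with
`ι (π g) = g|_L`.

* `s56ecu_YTEquiv` : `(Σ q ∈ S, Δ ⧸ (π ∘ primeLocalToGlobal q).range) ≃ {primes of L above S}`,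
  `⟨q, δ⟩ ↦ ι δ • (the prime below padicPlace q)`, equivariant (`s56ecu_YTEquiv_symm_smul`);
* `s56ecu_YIEquiv` : `Δ ⧸ ⟨π c⟩ ≃ InfinitePlace L`, `δ ↦ ι δ • (the place of complexEmbedding)`,
  equivariant (`s56ecu_YIEquiv_symm_smul`).
-/

set_option autoImplicit false
set_option linter.unusedSectionVars false
set_option linter.style.haveILetI false

open ExtCitation

namespace Fermat.Agent.S56

open NumberField IsDedekindDomain Fermat.Agent.S55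

open scoped Pointwise

local notation "Qbar" => AlgebraicClosure ℚ
local notation "GQ" => (AlgebraicClosure ℚ ≃ₐ[ℚ] AlgebraicClosure ℚ)

variable (L : IntermediateField ℚ Qbar) [NumberField L] [FiniteDimensional ℚ L] [IsGalois ℚ L]

/-- The action on primes, in terms of the pointwise action on ideals. -/
theorem s56ecu_primeAct_asIdeal (σ : L ≃ₐ[ℚ] L) (w : HeightOneSpectrum (𝓞 L)) :
    (su_primeAct σ w).asIdeal = σ • w.asIdeal := by
  ext x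
  rw [Ideal.mem_pointwise_smul_iff_inv_smul_mem]
  rfl

theorem s56ecu_natCast_mem_primeAct (σ : L ≃ₐ[ℚ] L) (w : HeightOneSpectrum (𝓞 L)) (n : ℕ) :
    (n : 𝓞 L) ∈ (su_primeAct σ w).asIdeal ↔ (n : 𝓞 L) ∈ w.asIdeal := by
  change (su_oEquiv σ).symm (n : 𝓞 L) ∈ w.asIdeal ↔ _
  rw [map_natCast]

/-- The distinguished prime of `L` above `q`: the one below `padicPlace q`. -/
noncomputable def s56ecu_wq (q : Nat.Primes) : HeightOneSpectrum (𝓞 L) :=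
  haveI : Fact (q : ℕ).Prime := ⟨q.2⟩
  pl_prime L (padicPlace (q : ℕ)) q.2 (pl_padicPlace_liesOver (q : ℕ))

theorem s56ecu_wq_asIdeal (q : Nat.Primes) :
    haveI : Fact (q : ℕ).Prime := ⟨q.2⟩
    (s56ecu_wq L q).asIdeal = pl_ideal L (padicPlace (q : ℕ)) := rfl

theorem s56ecu_wq_natCast_mem (q : Nat.Primes) : ((q : ℕ) : 𝓞 L) ∈ (s56ecu_wq L q).asIdeal := by
  haveI : Fact (q : ℕ).Prime := ⟨q.2⟩
  exact pl_natCast_mem_ideal L (padicPlace (q : ℕ)) (pl_padicPlace_liesOver (q : ℕ))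

theorem s56ecu_wq_unique (q q' : Nat.Primes)
    (h : ((q' : ℕ) : 𝓞 L) ∈ (s56ecu_wq L q).asIdeal) : q = q' := by
  haveI : Fact (q : ℕ).Prime := ⟨q.2⟩
  have h1 := (pl_prime_mem_primesOver_iff L (S := {q'}) (padicPlace (q : ℕ)) q
    (pl_padicPlace_liesOver (q : ℕ))).1 ⟨q', Finset.mem_singleton_self q', h⟩
  exact Finset.mem_singleton.1 h1

variable (S : Finset Nat.Primes)

/-- The base points: the distinguished primes above the `q ∈ S`. -/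
noncomputable def s56ecu_x0 (q : {q : Nat.Primes // q ∈ S}) : ↥(s56ecu_TS S ↥L) :=
  ⟨s56ecu_wq L q.1, (s56ecu_mem_TS S ↥L _).2 ⟨q.1, q.2, s56ecu_wq_natCast_mem L q.1⟩⟩

variable {Δ : Type} [Group Δ] (π : GQ →* Δ) (ι : Δ ≃* (L ≃ₐ[ℚ] L))
  (hι : ∀ g : GQ, ι (π g) = AlgEquiv.restrictNormalHom L g)

include hι in
/-- The image of the local Galois group at `q` is the stabiliser of the distinguished prime. -/
theorem s56ecu_mem_Dq_iff (q : {q : Nat.Primes // q ∈ S}) (δ : Δ) :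
    δ ∈ (π.comp (primeLocalToGlobal q.1)).range
      ↔ ι.toMonoidHom δ • s56ecu_x0 L S q = s56ecu_x0 L S q := by
  haveI : Fact ((q.1 : Nat.Primes) : ℕ).Prime := ⟨q.1.2⟩
  have hst := pl_range_local ((q.1 : Nat.Primes) : ℕ) L
  have h1 : ι.toMonoidHom δ • s56ecu_x0 L S q = s56ecu_x0 L S q
      ↔ ι δ ∈ MulAction.stabilizer (L ≃ₐ[ℚ] L) (pl_ideal L (padicPlace ((q.1 : Nat.Primes) : ℕ))) := by
    rw [MulAction.mem_stabilizer_iff, Subtype.ext_iff, HeightOneSpectrum.ext_iff]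
    change (su_primeAct (ι δ) (s56ecu_wq L q.1)).asIdeal = (s56ecu_wq L q.1).asIdeal ↔ _
    rw [s56ecu_primeAct_asIdeal]
    rfl
  rw [h1, ← hst]
  constructor
  · rintro ⟨τ, rfl⟩
    exact ⟨τ, (hι _).symm⟩
  · rintro ⟨τ, hτ⟩
    refine ⟨τ, ι.injective ?_⟩
    rw [← hτ]
    exact hι _

theorem s56ecu_x0_disjoint (q q' : {q : Nat.Primes // q ∈ S}) (δ : Δ)
    (h : ι.toMonoidHom δ • s56ecu_x0 L S q = s56ecu_x0 L S q') : q = q' := by
  apply Subtype.ext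
  apply s56ecu_wq_unique L
  have h1 : su_primeAct (ι δ) (s56ecu_wq L q.1) = s56ecu_wq L q'.1 := congrArg Subtype.val h
  have h2 := s56ecu_wq_natCast_mem L q'.1
  rw [← h1, s56ecu_natCast_mem_primeAct] at h2
  exact h2

include hι in
theorem s56ecu_x0_transitive (x : ↥(s56ecu_TS S ↥L)) :
    ∃ (q : {q : Nat.Primes // q ∈ S}) (δ : Δ), ι.toMonoidHom δ • s56ecu_x0 L S q = x := by
  obtain ⟨q, hqS, hq⟩ := (s56ecu_mem_TS S ↥L x.1).1 x.2
  haveI : Fact ((q : Nat.Primes) : ℕ).Prime := ⟨q.2⟩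
  obtain ⟨A, hA, hAx⟩ := pl_exists_valuationSubring L x.1 q.2 hq
  obtain ⟨τ, hτ⟩ := pl_exists_smul_padicPlace (q : ℕ) A hA
  refine ⟨⟨q, hqS⟩, π τ, ?_⟩
  apply Subtype.ext
  apply HeightOneSpectrum.ext
  change (su_primeAct (ι (π τ)) (s56ecu_wq L q)).asIdeal = x.1.asIdeal
  rw [s56ecu_primeAct_asIdeal, hι, s56ecu_wq_asIdeal, ← pl_ideal_smul, hτ, ← hAx]
  rfl

/-- **The primes of `L` above `S` as a `Δ`-set**: `Σ q ∈ S, Δ ⧸ D_q`. -/
noncomputable def s56ecu_YTEquiv :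
    (Σ q : {q : Nat.Primes // q ∈ S}, Δ ⧸ (π.comp (primeLocalToGlobal q.1)).range)
      ≃ ↥(s56ecu_TS S ↥L) :=
  @s56ecu_sigmaCosetEquiv Δ (L ≃ₐ[ℚ] L) ↥(s56ecu_TS S ↥L) _ _ _ ι.toMonoidHom
    {q : Nat.Primes // q ∈ S} (fun q => (π.comp (primeLocalToGlobal q.1)).range)
    (s56ecu_x0 L S) (s56ecu_mem_Dq_iff L S π ι hι) (s56ecu_x0_disjoint L S ι)
    (s56ecu_x0_transitive L S π ι hι)

theorem s56ecu_YTEquiv_symm_smul (δ₀ : Δ) (x : ↥(s56ecu_TS S ↥L)) :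
    (s56ecu_YTEquiv L S π ι hι).symm (ι δ₀ • x) = δ₀ • (s56ecu_YTEquiv L S π ι hι).symm x :=
  @s56ecu_sigmaCosetEquiv_symm_smul Δ (L ≃ₐ[ℚ] L) ↥(s56ecu_TS S ↥L) _ _ _ ι.toMonoidHom
    {q : Nat.Primes // q ∈ S} (fun q => (π.comp (primeLocalToGlobal q.1)).range)
    (s56ecu_x0 L S) (s56ecu_mem_Dq_iff L S π ι hι) (s56ecu_x0_disjoint L S ι)
    (s56ecu_x0_transitive L S π ι hι) δ₀ x

/-! ### Infinite places -/

/-- The complex embedding of `L ⊂ ℚ̄`. -/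
noncomputable def s56ecu_phi0 : ↥L →+* ℂ :=
  (complexEmbedding : Qbar →+* ℂ).comp (algebraMap ↥L Qbar)

theorem s56ecu_phi0_isConj :
    ComplexEmbedding.IsConj (s56ecu_phi0 L)
      (AlgEquiv.restrictNormalHom L complexConjugation : L ≃ₐ[ℚ] L) := by
  change ComplexEmbedding.conjugate (s56ecu_phi0 L) = _
  ext x
  change starRingEnd ℂ (complexEmbedding ((x : ↥L) : Qbar))
    = complexEmbedding (((AlgEquiv.restrictNormalHom L complexConjugation : L ≃ₐ[ℚ] L) x : ↥L) : Qbar)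
  rw [tl_coe_restrictNormalHom, complexEmbedding_complexConjugation]

include hι in
theorem s56ecu_mem_zpowers_iff (δ : Δ) :
    δ ∈ Subgroup.zpowers (π complexConjugation)
      ↔ ι.toMonoidHom δ • InfinitePlace.mk (s56ecu_phi0 L) = InfinitePlace.mk (s56ecu_phi0 L) := by
  have hst := s56ecu_inf_stabilizer (s56ecu_phi0 L) _ (s56ecu_phi0_isConj L)
  have h1 : ι.toMonoidHom δ • InfinitePlace.mk (s56ecu_phi0 L) = InfinitePlace.mk (s56ecu_phi0 L)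
      ↔ ι δ ∈ MulAction.stabilizer (L ≃ₐ[ℚ] L) (InfinitePlace.mk (s56ecu_phi0 L)) := by
    rw [MulAction.mem_stabilizer_iff]
    rfl
  rw [h1, hst, ← hι, Subgroup.mem_zpowers_iff, Subgroup.mem_zpowers_iff]
  constructor
  · rintro ⟨k, rfl⟩
    exact ⟨k, (map_zpow ι _ k).symm⟩
  · rintro ⟨k, hk⟩
    refine ⟨k, ι.injective ?_⟩
    rw [map_zpow]
    exact hk

theorem s56ecu_phi0_transitive (w : InfinitePlace ↥L) :
    ∃ δ : Δ, ι.toMonoidHom δ • InfinitePlace.mk (s56ecu_phi0 L) = w := by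
  obtain ⟨g, hg⟩ := s56ecu_inf_transitive (InfinitePlace.mk (s56ecu_phi0 L)) w
  refine ⟨ι.symm g, ?_⟩
  change ι (ι.symm g) • _ = w
  rw [MulEquiv.apply_symm_apply]
  exact hg

/-- **The infinite places of `L` as a `Δ`-set**: `Δ ⧸ ⟨π c⟩`. -/
noncomputable def s56ecu_YIEquiv :
    Δ ⧸ Subgroup.zpowers (π complexConjugation) ≃ InfinitePlace ↥L :=
  s56ecu_cosetEquiv ι.toMonoidHom _ (InfinitePlace.mk (s56ecu_phi0 L))
    (s56ecu_mem_zpowers_iff L π ι hι) (s56ecu_phi0_transitive L ι)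

theorem s56ecu_YIEquiv_symm_smul (δ₀ : Δ) (w : InfinitePlace ↥L) :
    (s56ecu_YIEquiv L π ι hι).symm (ι δ₀ • w) = δ₀ • (s56ecu_YIEquiv L π ι hι).symm w :=
  s56ecu_cosetEquiv_symm_smul ι.toMonoidHom _ _ _ _ δ₀ w

end Fermat.Agent.S56
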