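import Mathlib
import Fermat.Agent.S56.GW.EC.Base.Seams
import Fermat.Agent.S56.GW.EC.Unit.LevelET
import Fermat.Agent.S56.GW.EC.Unit.Places

/-!
# S56 / [GW-EC] / [EC-UNIT]: the seam `s56eb_Unit_stmt` of [EC-BASE] (prefix `s56ecu_`)

`s56ecu_unit_main : s56eb_Unit_stmt` — Dirichlet's unit theorem in multiplicity form for the level
field `K = s56ecu_levK π` of `π : G_ℚ →* Δ`:

`h_X(E_S(K)/p) · h_X(𝔽_p) = h_X(E_S(K)) · h_X(𝔽_p[Σ_{q ∈ S} Δ ⧸ D_q]) · h_X(𝔽_p[Δ ⧸ ⟨π c⟩])`,

`E_S(K) = lvH0 (Fun(Δ, E_S))`.  Glue of: the level bridge (`Unit/Level*.lean`), the places of `K` as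
coset spaces (`Unit/Places.lean`), and the equivariant unit theorem in counting form
(`Unit/CountG.lean`, on top of [EC-MULT]).
-/

set_option autoImplicit false
set_option linter.unusedSectionVars false
set_option linter.style.haveILetI false

open ExtCitation

namespace Fermat.Agent.S56

open NumberField IsDedekindDomain Fermat.Agent.S55

local notation "Qbar" => AlgebraicClosure ℚ
local notation "GQ" => (AlgebraicClosure ℚ ≃ₐ[ℚ] AlgebraicClosure ℚ)

attribute [local instance] s56eb_actH0 s56ecu_invFunAct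

section glue

variable (S : Finset Nat.Primes) {Δ : Type} [Group Δ] (π : GQ →* Δ)

/-- `lvH0 (Fun(Δ, E_S)) = Fun(Δ, E_S)^{G_ℚ}` (same carrier). -/
noncomputable def s56ecu_H0Equiv : lvH0 (G := GQ) (s56eb_TE S π) ≃+ ↥(s56ecu_invFun S π) where
  toFun x := ⟨fun δ => (x : s56eb_TE S π) δ, by
    rw [s56ecu_mem_invFun]
    intro g δ
    have h := x.2 g
    have h2 := congrArg (fun φ : s56eb_TE S π => φ δ) h
    exact h2⟩
  invFun φ := ⟨s56eb_TF.mk (φ : Δ → dm_ES S), fun g => by
    apply s56eb_TF.ext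
    intro δ
    exact (s56ecu_mem_invFun S π _).1 φ.2 g δ⟩
  left_inv _ := rfl
  right_inv _ := rfl
  map_add' _ _ := rfl

theorem s56ecu_H0Equiv_smul (B : Subgroup Δ) (b : B) (x : lvH0 (G := GQ) (s56eb_TE S π)) :
    s56ecu_H0Equiv S π (b • x) = (b : Δ) • s56ecu_H0Equiv S π x := rfl

end glue

/-- **The seam (UNIT) of [EC-BASE].** -/
theorem s56ecu_unit_main : s56eb_Unit_stmt := by
  intro p _ _ S _ Δ _ _ π χ hlev B hpB X _ _ _ hX Q _ _ q hq hker
  have hsm := hlev.smooth
  have hsurj := hlev.surj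
  have hunr := hlev.unr
  haveI := s56ecu_levK_numberField π hsm
  haveI := s56ecu_levK_normal π hsm
  haveI := s56ecu_levK_finiteDimensional π hsm
  haveI := s56ecu_levK_isGalois π hsm
  have hι : ∀ g : GQ, s56ecu_levIso π hsm hsurj (π g)
      = AlgEquiv.restrictNormalHom ↥(s56ecu_levK π) g := s56ecu_levIso_apply π hsm hsurj
  -- the two index sets
  let ΘT := s56ecu_YTEquiv (s56ecu_levK π) S π (s56ecu_levIso π hsm hsurj) hι
  let ΘI := s56ecu_YIEquiv (s56ecu_levK π) π (s56ecu_levIso π hsm hsurj) hι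
  let eT : s56eb_Fp p (s56eb_YT S π) ≃+ (↥(s56ecu_TS S ↥(s56ecu_levK π)) → ZMod p) :=
    { toFun := fun a y => a (ΘT.symm y)
      invFun := fun f => s56eb_Fp.mk fun y => f (ΘT y)
      left_inv := fun a => by
        apply s56eb_Fp.ext
        intro y
        show a (ΘT.symm (ΘT y)) = a y
        rw [Equiv.symm_apply_apply]
      right_inv := fun f => by
        funext y
        show f (ΘT (ΘT.symm y)) = f y
        rw [Equiv.apply_symm_apply]
      map_add' := fun _ _ => rfl }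
  let eI : s56eb_Fp p (s56eb_YI π) ≃+ (InfinitePlace ↥(s56ecu_levK π) → ZMod p) :=
    { toFun := fun a w => a (ΘI.symm w)
      invFun := fun f => s56eb_Fp.mk fun y => f (ΘI y)
      left_inv := fun a => by
        apply s56eb_Fp.ext
        intro y
        show a (ΘI.symm (ΘI y)) = a y
        rw [Equiv.symm_apply_apply]
      right_inv := fun f => by
        funext y
        show f (ΘI (ΘI.symm y)) = f y
        rw [Equiv.apply_symm_apply]
      map_add' := fun _ _ => rfl }
  refine s56ecu_count_lev S π hsm hsurj hunr p B hpB X hX (s56ecu_H0Equiv S π)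
    (s56ecu_H0Equiv_smul S π B) q hq hker (s56eb_F1.equiv (p := p)) (fun b a => rfl)
    eT ?_ eI ?_
  · intro b a y
    show a (b⁻¹ • ΘT.symm y) = a (ΘT.symm ((s56ecu_levIso π hsm hsurj (b : Δ))⁻¹ • y))
    congr 1
    rw [← map_inv]
    exact (s56ecu_YTEquiv_symm_smul (s56ecu_levK π) S π (s56ecu_levIso π hsm hsurj) hι
      ((b : Δ)⁻¹) y).symm
  · intro b a w
    show a (b⁻¹ • ΘI.symm w) = a (ΘI.symm ((s56ecu_levIso π hsm hsurj (b : Δ))⁻¹ • w))
    congr 1
    rw [← map_inv]
    exact (s56ecu_YIEquiv_symm_smul (s56ecu_levK π) π (s56ecu_levIso π hsm hsurj) hι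
      ((b : Δ)⁻¹) w).symm

end Fermat.Agent.S56
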